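import Fermat.Agent.S48x.Eis1.Adapter

/-!
# P-S48 (E-WP): holomorphy and boundedness of the weight one Eisenstein series `Zv` (helper40)

For `0 < l` and `(a, b) ≢ (0, 0) mod l` the function `EWP.Zv l a b` only depends on `(a, b)` modulo
`l` (`Zv_add_left'`, `Zv_add_right'`, `Zv_add_mul_left`), for `0 ≤ a < l` it is given by an
explicit geometric series `ZvExp` in `e((c τ ± b)/l)`, `c ≥ 1`, and hence it is holomorphic
(`mdifferentiable_Zv'`) and bounded at `i∞` (`isBoundedAtImInfty_Zv'`).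
-/

set_option autoImplicit false
set_option linter.unusedVariables false

open Complex Real Filter Topology Finset
open scoped UpperHalfPlane Manifold

noncomputable section
namespace Fermat.Agent.S48x.Eis1

open Fermat.Agent.S48x.EWP

/-- A torsion point `(a τ + b)/l` with `(a, b) ≢ 0 mod l` is not a lattice point. -/
theorem notLat_torsion {l : ℕ} (hl : 0 < l) {a b : ℤ} (hv : ¬ ((l : ℤ) ∣ a ∧ (l : ℤ) ∣ b)) (τ : ℍ) :
    NotLat (((a : ℂ) * τ + b) / l) τ := by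
  intro m n h0
  have hl0 : (l : ℂ) ≠ 0 := by exact_mod_cast hl.ne'
  have e1 : ((a : ℂ) * τ + b) / l + m * τ + n =
      ((((a + l * m : ℤ) : ℂ)) * τ + ((b + l * n : ℤ) : ℂ)) / l := by
    push_cast; field_simp; ring
  rw [e1, div_eq_zero_iff] at h0
  rcases h0 with h0 | h0
  · have him := congrArg Complex.im h0
    simp only [add_im, mul_im, intCast_re, intCast_im, zero_mul, add_zero, zero_im,
      UpperHalfPlane.coe_im] at him
    have h1 : ((a + l * m : ℤ) : ℝ) = 0 := by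
      rcases mul_eq_zero.mp him with h | h
      · exact h
      · exact absurd h τ.im_ne_zero
    have h1' : a + l * m = 0 := by exact_mod_cast h1
    rw [h1'] at h0
    simp only [Int.cast_zero, zero_mul, zero_add] at h0
    have h2' : b + l * n = 0 := by exact_mod_cast h0
    apply hv
    exact ⟨⟨-m, by linarith⟩, ⟨-n, by linarith⟩⟩
  · exact hl0 h0

theorem Zv_add_left' {l : ℕ} (hl : 0 < l) {a b : ℤ} (hv : ¬ ((l : ℤ) ∣ a ∧ (l : ℤ) ∣ b)) (τ : ℍ) :
    Zv l (a + l) b τ = Zv l a b τ := by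
  have hl0 : (l : ℂ) ≠ 0 := by exact_mod_cast hl.ne'
  unfold Zv
  have e : (((a + l : ℤ) : ℂ) * τ + b) / l = ((a : ℂ) * τ + b) / l + τ := by
    push_cast; field_simp; ring
  rw [e, cotC_add_tau' (notLat_torsion hl hv τ)]
  push_cast
  field_simp
  ring

theorem Zv_add_right' {l : ℕ} (hl : 0 < l) {a b : ℤ} (hv : ¬ ((l : ℤ) ∣ a ∧ (l : ℤ) ∣ b)) (τ : ℍ) :
    Zv l a (b + l) τ = Zv l a b τ := by
  have hl0 : (l : ℂ) ≠ 0 := by exact_mod_cast hl.ne'
  unfold Zv
  have e : ((a : ℂ) * τ + ((b + l : ℤ) : ℂ)) / l = ((a : ℂ) * τ + b) / l + 1 := by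
    push_cast; field_simp; ring
  rw [e, cotC_add_one' (notLat_torsion hl hv τ)]

theorem Zv_add_mul_left {l : ℕ} (hl : 0 < l) {a b : ℤ} (hv : ¬ ((l : ℤ) ∣ a ∧ (l : ℤ) ∣ b))
    (k : ℤ) (τ : ℍ) : Zv l (a + l * k) b τ = Zv l a b τ := by
  have hstep : ∀ a' : ℤ, ¬ ((l : ℤ) ∣ a' ∧ (l : ℤ) ∣ b) → ∀ k : ℕ,
      Zv l (a' + l * k) b τ = Zv l a' b τ := by
    intro a' hv' k
    induction k with
    | zero => simp
    | succ k ih =>
      have hv'' : ¬ ((l : ℤ) ∣ (a' + l * k) ∧ (l : ℤ) ∣ b) := by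
        rintro ⟨h1, h2⟩
        exact hv' ⟨(Int.dvd_add_left (Dvd.intro _ rfl)).mp h1, h2⟩
      have := Zv_add_left' hl hv'' τ
      rw [← ih, ← this]
      congr 1
      push_cast; ring
  obtain ⟨n, rfl | rfl⟩ := Int.eq_nat_or_neg k
  · exact hstep a hv n
  · have hv' : ¬ ((l : ℤ) ∣ (a + l * -(n : ℤ)) ∧ (l : ℤ) ∣ b) := by
      rintro ⟨h1, h2⟩
      refine hv ⟨?_, h2⟩
      have : (l : ℤ) ∣ l * -(n : ℤ) := Dvd.intro _ rfl
      exact (Int.dvd_add_left this).mp h1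
    have := hstep (a + l * -(n : ℤ)) hv' n
    rw [← this]
    congr 1
    ring


/-! ### The geometric building block -/

/-- `hh l c b z = e((c z + b)/l) / (1 - e((c z + b)/l))`. -/
def hh (l : ℕ) (c b : ℤ) (z : ℂ) : ℂ :=
  ee (((c : ℂ) * z + b) / l) / (1 - ee (((c : ℂ) * z + b) / l))

theorem norm_ee_torsion {l : ℕ} (hl : 0 < l) (c b : ℤ) (z : ℂ) :
    ‖ee (((c : ℂ) * z + b) / l)‖ = rexp (-2 * π * (c * z.im / l)) := by
  rw [norm_ee]
  congr 2
  have : (((c : ℂ) * z + b) / l).im = c * z.im / l := by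
    have hl' : ((l : ℂ)) = ((l : ℝ) : ℂ) := by push_cast; rfl
    rw [hl', Complex.div_ofReal_im]
    simp [mul_im]
  rw [this]

theorem norm_ee_torsion_le {l : ℕ} (hl : 0 < l) {c : ℤ} (b : ℤ) {m : ℕ} (hc : (m : ℤ) * l + 1 ≤ c)
    {B : ℝ} (hB : 0 < B) {z : ℂ} (hz : B ≤ z.im) :
    ‖ee (((c : ℂ) * z + b) / l)‖ ≤ rexp (-2 * π * B / l) * rexp (-2 * π * B) ^ m := by
  rw [norm_ee_torsion hl, ← Real.exp_nat_mul, ← Real.exp_add, Real.exp_le_exp]
  have hl' : (0 : ℝ) < l := by exact_mod_cast hl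
  have hc' : (m : ℝ) * l + 1 ≤ (c : ℝ) := by exact_mod_cast hc
  have hpi := Real.pi_pos
  have h1 : ((m : ℝ) * l + 1) * B ≤ c * z.im := by
    have hm : (0 : ℝ) ≤ (m : ℝ) * l + 1 := by positivity
    calc ((m : ℝ) * l + 1) * B ≤ ((m : ℝ) * l + 1) * z.im := by gcongr
      _ ≤ c * z.im := by
        have : 0 ≤ z.im := hB.le.trans hz
        gcongr
  have h2 : -2 * π * (c * z.im / l) ≤ -2 * π * (((m : ℝ) * l + 1) * B / l) := by
    have : ((m : ℝ) * l + 1) * B / l ≤ c * z.im / l := by gcongr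
    nlinarith
  refine h2.trans (le_of_eq ?_)
  field_simp
  ring

theorem norm_div_one_sub_le' {x : ℂ} {ρ : ℝ} (hρ : ρ < 1) (hx : ‖x‖ ≤ ρ) :
    ‖x / (1 - x)‖ ≤ ‖x‖ / (1 - ρ) := by
  have h1 : 1 - ρ ≤ ‖1 - x‖ := by
    have := norm_sub_norm_le (1 : ℂ) x
    rw [norm_one] at this
    linarith
  rw [norm_div]
  exact div_le_div_of_nonneg_left (norm_nonneg x) (by linarith) h1

theorem norm_hh_le {l : ℕ} (hl : 0 < l) {c : ℤ} (b : ℤ) {m : ℕ} (hc : (m : ℤ) * l + 1 ≤ c)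
    {B : ℝ} (hB : 0 < B) {z : ℂ} (hz : B ≤ z.im) :
    ‖hh l c b z‖ ≤ rexp (-2 * π * B / l) * rexp (-2 * π * B) ^ m / (1 - rexp (-2 * π * B / l)) := by
  have hl' : (0 : ℝ) < l := by exact_mod_cast hl
  have hρ : rexp (-2 * π * B / l) < 1 := by
    rw [Real.exp_lt_one_iff]
    have : 0 < 2 * π * B / l := by have := Real.pi_pos; positivity
    have e : -2 * π * B / l = -(2 * π * B / l) := by ring
    rw [e]; linarith
  have hr : rexp (-2 * π * B) ≤ 1 := by
    rw [Real.exp_le_one_iff]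
    have := Real.pi_pos
    nlinarith
  have h1 := norm_ee_torsion_le hl b hc hB hz
  have h2 : ‖ee (((c : ℂ) * z + b) / l)‖ ≤ rexp (-2 * π * B / l) := by
    refine h1.trans ?_
    have : rexp (-2 * π * B) ^ m ≤ 1 := pow_le_one₀ (Real.exp_pos _).le hr
    calc rexp (-2 * π * B / l) * rexp (-2 * π * B) ^ m ≤ rexp (-2 * π * B / l) * 1 := by gcongr
      _ = _ := mul_one _
  unfold hh
  refine (norm_div_one_sub_le' hρ h2).trans ?_
  have : 0 < 1 - rexp (-2 * π * B / l) := by linarith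
  gcongr

theorem ee_torsion_ne_one {l : ℕ} (hl : 0 < l) {c : ℤ} (b : ℤ) (hc : 1 ≤ c) {z : ℂ}
    (hz : 0 < z.im) : ee (((c : ℂ) * z + b) / l) ≠ 1 := by
  intro h
  have h1 := norm_ee_torsion hl c b z
  rw [h, norm_one] at h1
  have hl' : (0 : ℝ) < l := by exact_mod_cast hl
  have hc' : (1 : ℝ) ≤ c := by exact_mod_cast hc
  have : 0 < 2 * π * (c * z.im / l) := by have := Real.pi_pos; positivity
  have h2 : rexp (-2 * π * (c * z.im / l)) < 1 := by
    rw [Real.exp_lt_one_iff]; linarith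
  linarith

theorem differentiableOn_hh {l : ℕ} (hl : 0 < l) {c : ℤ} (b : ℤ) (hc : 1 ≤ c) :
    DifferentiableOn ℂ (hh l c b) {z : ℂ | 0 < z.im} := by
  intro z hz
  have hne : 1 - ee (((c : ℂ) * z + b) / l) ≠ 0 :=
    sub_ne_zero.mpr (Ne.symm (ee_torsion_ne_one hl b hc hz))
  have hd : DifferentiableAt ℂ (fun z : ℂ => ee (((c : ℂ) * z + b) / l)) z := by
    unfold ee
    fun_prop
  exact (hd.div ((differentiableAt_const _).sub hd) hne).differentiableWithinAt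


/-! ### The explicit series -/

/-- The `m`-th term of the explicit series. -/
def expTerm (l : ℕ) (a b : ℤ) (m : ℕ) (z : ℂ) : ℂ :=
  -(2 * π * I) * (hh l (a + (m + 1 : ℕ) * l) b z - hh l ((m + 1 : ℕ) * l - a) (-b) z)

/-- The leading term of the explicit series. -/
def expHead (l : ℕ) (a b : ℤ) (z : ℂ) : ℂ :=
  if a = 0 then pc ((b : ℂ) / l) else -(π * I) - 2 * π * I * hh l a b z

/-- The explicit series for `Zv l a b`, `0 ≤ a < l`, as a function on `ℂ`. -/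
def ZvExp (l : ℕ) (a b : ℤ) (z : ℂ) : ℂ :=
  expHead l a b z + 2 * π * I * a / l + ∑' m : ℕ, expTerm l a b m z

theorem tailTerm_torsion {l : ℕ} (hl : 0 < l) {a b : ℤ} (hv : ¬ ((l : ℤ) ∣ a ∧ (l : ℤ) ∣ b))
    (τ : ℍ) (m : ℕ) :
    tailTerm (((a : ℂ) * τ + b) / l) τ m = expTerm l a b m τ := by
  have hl0 : (l : ℂ) ≠ 0 := by exact_mod_cast hl.ne'
  rw [tailTerm_eq (notLat_torsion hl hv τ)]
  unfold expTerm hh
  have e1 : ((a : ℂ) * τ + b) / l + ((m + 1 : ℕ) : ℂ) * τ =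
      (((a + (m + 1 : ℕ) * l : ℤ) : ℂ) * τ + b) / l := by
    push_cast; field_simp; ring
  have e2 : -(((a : ℂ) * τ + b) / l) + ((m + 1 : ℕ) : ℂ) * τ =
      ((((m + 1 : ℕ) * l - a : ℤ) : ℂ) * τ + ((-b : ℤ) : ℂ)) / l := by
    push_cast; field_simp; ring
  rw [e1, e2]

theorem pc_torsion {l : ℕ} (hl : 0 < l) {a b : ℤ} (ha : 0 ≤ a)
    (hv : ¬ ((l : ℤ) ∣ a ∧ (l : ℤ) ∣ b)) (τ : ℍ) :
    pc (((a : ℂ) * τ + b) / l) = expHead l a b τ := by
  unfold expHead
  by_cases ha0 : a = 0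
  · subst ha0
    simp
  · rw [if_neg ha0]
    have h1 : ee (((a : ℂ) * τ + b) / l) ≠ 1 := by
      have := (notLat_torsion hl hv τ).ee_ne_one 0
      simpa using this
    rw [pc_eq _ h1]
    rfl

theorem Zv_eq_ZvExp {l : ℕ} (hl : 0 < l) {a b : ℤ} (ha : 0 ≤ a)
    (hv : ¬ ((l : ℤ) ∣ a ∧ (l : ℤ) ∣ b)) (τ : ℍ) :
    Zv l a b τ = ZvExp l a b τ := by
  unfold Zv ZvExp
  rw [cotC_eq_CC]
  unfold CC
  rw [pc_torsion hl ha hv τ]
  simp_rw [tailTerm_torsion hl hv τ]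
  ring


/-! ### Bounds, holomorphy and boundedness -/

/-- The summable majorant of the explicit series on `{B ≤ Im z}`. -/
def expBound (l : ℕ) (B : ℝ) (m : ℕ) : ℝ :=
  2 * π * (2 * (rexp (-2 * π * B / l) * rexp (-2 * π * B) ^ m / (1 - rexp (-2 * π * B / l))))

theorem summable_expBound (l : ℕ) {B : ℝ} (hB : 0 < B) : Summable (expBound l B) := by
  unfold expBound
  have hr : rexp (-2 * π * B) < 1 := by
    rw [Real.exp_lt_one_iff]
    have := Real.pi_pos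
    nlinarith
  have hg := summable_geometric_of_lt_one (Real.exp_pos (-2 * π * B)).le hr
  have := ((hg.mul_left (rexp (-2 * π * B / l))).div_const (1 - rexp (-2 * π * B / l))).mul_left 2
    |>.mul_left (2 * π)
  exact this

theorem norm_expTerm_le {l : ℕ} (hl : 0 < l) {a : ℤ} (b : ℤ) (ha : 0 ≤ a) (hal : a < l) (m : ℕ)
    {B : ℝ} (hB : 0 < B) {z : ℂ} (hz : B ≤ z.im) :
    ‖expTerm l a b m z‖ ≤ expBound l B m := by
  unfold expTerm expBound
  have hc1 : (m : ℤ) * l + 1 ≤ a + (m + 1 : ℕ) * l := by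
    have : (1 : ℤ) ≤ l := by exact_mod_cast hl
    push_cast; nlinarith
  have hc2 : (m : ℤ) * l + 1 ≤ (m + 1 : ℕ) * l - a := by
    push_cast; nlinarith
  have h1 := norm_hh_le hl b hc1 hB hz
  have h2 := norm_hh_le hl (-b) hc2 hB hz
  rw [norm_mul, norm_neg]
  have h3 : ‖(2 * π * I : ℂ)‖ = 2 * π := by
    simp [abs_of_pos Real.pi_pos]
  rw [h3]
  have h4 := norm_sub_le (hh l (a + (m + 1 : ℕ) * l) b z) (hh l ((m + 1 : ℕ) * l - a) (-b) z)
  have hpi := Real.pi_pos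
  have h5 : ‖hh l (a + (m + 1 : ℕ) * l) b z - hh l ((m + 1 : ℕ) * l - a) (-b) z‖ ≤
      2 * (rexp (-2 * π * B / l) * rexp (-2 * π * B) ^ m / (1 - rexp (-2 * π * B / l))) := by
    linarith
  exact mul_le_mul_of_nonneg_left h5 (by positivity)

theorem differentiableOn_expTerm {l : ℕ} (hl : 0 < l) {a : ℤ} (b : ℤ) (ha : 0 ≤ a) (hal : a < l)
    (m : ℕ) : DifferentiableOn ℂ (expTerm l a b m) {z : ℂ | 0 < z.im} := by
  unfold expTerm
  have hc1 : (1 : ℤ) ≤ a + (m + 1 : ℕ) * l := by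
    have : (1 : ℤ) ≤ l := by exact_mod_cast hl
    push_cast; nlinarith
  have hc2 : (1 : ℤ) ≤ (m + 1 : ℕ) * l - a := by
    push_cast; nlinarith
  exact ((differentiableOn_hh hl b hc1).sub (differentiableOn_hh hl (-b) hc2)).const_mul _

theorem differentiableOn_expHead {l : ℕ} (hl : 0 < l) {a : ℤ} (b : ℤ) (ha : 0 ≤ a) :
    DifferentiableOn ℂ (expHead l a b) {z : ℂ | 0 < z.im} := by
  unfold expHead
  by_cases ha0 : a = 0
  · simp only [ha0, if_true]
    exact differentiableOn_const _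
  · simp only [ha0, if_false]
    have hc : (1 : ℤ) ≤ a := by omega
    exact (differentiableOn_const _).sub ((differentiableOn_hh hl b hc).const_mul _)

theorem differentiableOn_ZvExp {l : ℕ} (hl : 0 < l) {a : ℤ} (b : ℤ) (ha : 0 ≤ a) (hal : a < l) :
    DifferentiableOn ℂ (ZvExp l a b) {z : ℂ | 0 < z.im} := by
  intro z hz
  have hz' : 0 < z.im := hz
  set B := z.im / 2 with hBdef
  have hB : 0 < B := by positivity
  have hopen : IsOpen {w : ℂ | B < w.im} := isOpen_lt continuous_const Complex.continuous_im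
  have hsub : {w : ℂ | B < w.im} ⊆ {w : ℂ | 0 < w.im} := fun w hw => hB.trans hw
  have hzU : z ∈ {w : ℂ | B < w.im} := by
    change z.im / 2 < z.im
    linarith
  have hts : DifferentiableOn ℂ (fun w => ∑' m : ℕ, expTerm l a b m w) {w : ℂ | B < w.im} :=
    differentiableOn_tsum_of_summable_norm (summable_expBound l hB)
      (fun m => (differentiableOn_expTerm hl b ha hal m).mono hsub) hopen
      (fun m w hw => norm_expTerm_le hl b ha hal m hB (le_of_lt hw))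
  have hall : DifferentiableOn ℂ (ZvExp l a b) {w : ℂ | B < w.im} := by
    unfold ZvExp
    exact (((differentiableOn_expHead hl b ha).mono hsub).add (differentiableOn_const _)).add hts
  exact ((hall z hzU).differentiableAt (hopen.mem_nhds hzU)).differentiableWithinAt

theorem norm_expHead_le {l : ℕ} (hl : 0 < l) {a : ℤ} (b : ℤ) (ha : 0 ≤ a)
    {B : ℝ} (hB : 0 < B) {z : ℂ} (hz : B ≤ z.im) :
    ‖expHead l a b z‖ ≤ ‖pc ((b : ℂ) / l)‖ + (π + expBound l B 0) := by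
  unfold expHead
  have hpi := Real.pi_pos
  have hnn : 0 ≤ expBound l B 0 := by
    have hρ : rexp (-2 * π * B / l) < 1 := by
      have hl' : (0 : ℝ) < l := by exact_mod_cast hl
      rw [Real.exp_lt_one_iff]
      have : 0 < 2 * π * B / l := by positivity
      have e : -2 * π * B / l = -(2 * π * B / l) := by ring
      rw [e]; linarith
    unfold expBound
    have : 0 < 1 - rexp (-2 * π * B / l) := by linarith
    positivity
  by_cases ha0 : a = 0
  · simp only [ha0, if_true]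
    linarith [norm_nonneg (pc ((b : ℂ) / l))]
  · simp only [ha0, if_false]
    have hc : ((0 : ℕ) : ℤ) * l + 1 ≤ a := by
      have : (1 : ℤ) ≤ a := by omega
      simpa using this
    have h1 := norm_hh_le hl b hc hB hz
    have h2 : ‖-(π * I : ℂ) - 2 * π * I * hh l a b z‖ ≤ π + 2 * π * ‖hh l a b z‖ := by
      refine (norm_sub_le _ _).trans ?_
      rw [norm_neg, norm_mul, norm_mul, norm_mul]
      simp [abs_of_pos Real.pi_pos]
    have h3 : 2 * π * ‖hh l a b z‖ ≤ expBound l B 0 := by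
      unfold expBound
      have : ‖hh l a b z‖ ≤
          2 * (rexp (-2 * π * B / l) * rexp (-2 * π * B) ^ 0 / (1 - rexp (-2 * π * B / l))) := by
        have hnn' : 0 ≤ rexp (-2 * π * B / l) * rexp (-2 * π * B) ^ 0 /
            (1 - rexp (-2 * π * B / l)) := (norm_nonneg _).trans h1
        linarith
      exact mul_le_mul_of_nonneg_left this (by positivity)
    linarith [norm_nonneg (pc ((b : ℂ) / l))]

theorem norm_ZvExp_le {l : ℕ} (hl : 0 < l) {a : ℤ} (b : ℤ) (ha : 0 ≤ a) (hal : a < l)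
    {B : ℝ} (hB : 0 < B) {z : ℂ} (hz : B ≤ z.im) :
    ‖ZvExp l a b z‖ ≤ ‖pc ((b : ℂ) / l)‖ + (π + expBound l B 0) + ‖(2 * π * I * a / l : ℂ)‖ +
      ∑' m : ℕ, expBound l B m := by
  unfold ZvExp
  have h1 := norm_expHead_le hl b ha hB hz
  have hs : Summable fun m : ℕ => ‖expTerm l a b m z‖ :=
    Summable.of_nonneg_of_le (fun _ => norm_nonneg _)
      (fun m => norm_expTerm_le hl b ha hal m hB hz) (summable_expBound l hB)
  have h2 : ‖∑' m : ℕ, expTerm l a b m z‖ ≤ ∑' m : ℕ, expBound l B m :=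
    (norm_tsum_le_tsum_norm hs).trans
      (hs.tsum_le_tsum (fun m => norm_expTerm_le hl b ha hal m hB hz) (summable_expBound l hB))
  refine (norm_add_le _ _).trans ?_
  refine add_le_add ((norm_add_le _ _).trans (add_le_add h1 le_rfl)) h2


/-! ### The statements for `Zv` -/

theorem Zv_eq_emod {l : ℕ} (hl : 0 < l) {a b : ℤ} (hv : ¬ ((l : ℤ) ∣ a ∧ (l : ℤ) ∣ b)) :
    ¬ ((l : ℤ) ∣ a % l ∧ (l : ℤ) ∣ b) ∧ Zv l a b = Zv l (a % l) b := by
  have hdvd : (l : ℤ) ∣ a % l ↔ (l : ℤ) ∣ a := by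
    rw [Int.dvd_iff_emod_eq_zero, Int.dvd_iff_emod_eq_zero, Int.emod_emod_of_dvd _ (dvd_refl _)]
  have hv' : ¬ ((l : ℤ) ∣ a % l ∧ (l : ℤ) ∣ b) := by
    rw [hdvd]; exact hv
  refine ⟨hv', ?_⟩
  funext τ
  have := Zv_add_mul_left hl hv' (a / l) τ
  rw [Int.emod_add_mul_ediv] at this
  exact this

theorem mdifferentiable_Zv' (l : ℕ) (hl : 0 < l) (a b : ℤ)
    (hv : ¬ ((l : ℤ) ∣ a ∧ (l : ℤ) ∣ b)) : MDiff (Zv l a b) := by
  obtain ⟨hv', he⟩ := Zv_eq_emod hl hv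
  rw [he]
  have hl' : (l : ℤ) ≠ 0 := by exact_mod_cast hl.ne'
  have ha : 0 ≤ a % l := Int.emod_nonneg a hl'
  have hal : a % l < l := Int.emod_lt_of_pos a (by exact_mod_cast hl)
  rw [UpperHalfPlane.mdifferentiable_iff]
  refine (differentiableOn_ZvExp hl b ha hal).congr ?_
  intro z hz
  have hz' : 0 < z.im := hz
  simp only [Function.comp_apply]
  rw [UpperHalfPlane.ofComplex_apply_of_im_pos hz', Zv_eq_ZvExp hl ha hv']

theorem isBoundedAtImInfty_Zv' (l : ℕ) (hl : 0 < l) (a b : ℤ)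
    (hv : ¬ ((l : ℤ) ∣ a ∧ (l : ℤ) ∣ b)) : UpperHalfPlane.IsBoundedAtImInfty (Zv l a b) := by
  obtain ⟨hv', he⟩ := Zv_eq_emod hl hv
  rw [he]
  have hl' : (l : ℤ) ≠ 0 := by exact_mod_cast hl.ne'
  have ha : 0 ≤ a % l := Int.emod_nonneg a hl'
  have hal : a % l < l := Int.emod_lt_of_pos a (by exact_mod_cast hl)
  rw [UpperHalfPlane.isBoundedAtImInfty_iff]
  refine ⟨‖pc ((b : ℂ) / l)‖ + (π + expBound l 1 0) + ‖(2 * π * I * (a % l : ℤ) / l : ℂ)‖ +
      ∑' m : ℕ, expBound l 1 m, 1, fun τ hτ => ?_⟩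
  rw [Zv_eq_ZvExp hl ha hv']
  exact norm_ZvExp_le hl b ha hal one_pos hτ

end Fermat.Agent.S48x.Eis1
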