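import Fermat.Agent.S48x.Eis1.Zeta
import Fermat.Agent.S48x.EWP.Defs
import Fermat.Agent.S48x.EWP.ZetaSum

/-!
# P-S48 (E-WP): adapter between `S48x/Eis1` (helper40) and `S48x/EWP` (helper30, helper42)

The definitions `EWP.cotC`, `EWP.cotTermC`, `EWP.zetaW` agree with `Eis1.CC`, `Eis1.tailTerm`,
`Eis1.zetaL`; we restate the results of `Eis1/CotSum.lean` and `Eis1/Zeta.lean` in the
vocabulary of `EWP/Defs.lean`.
-/

set_option autoImplicit false

open Complex Real Filter Topology Finset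
open scoped UpperHalfPlane

noncomputable section
namespace Fermat.Agent.S48x.Eis1

open Fermat.Agent.S48x.EWP

theorem cotTermC_eq_tailTerm (z : ℂ) (τ : ℍ) (m : ℕ) : cotTermC z τ m = tailTerm z τ m := by
  unfold cotTermC tailTerm pc
  push_cast
  rfl

theorem cotC_eq_CC (z : ℂ) (τ : ℍ) : cotC z τ = CC z τ := by
  unfold cotC CC
  simp_rw [cotTermC_eq_tailTerm]
  rfl

theorem zetaTerm_eq_zTerm (x : ℂ) (τ : ℍ) (v : Fin 2 → ℤ) :
    zetaTerm x τ v = zTerm x τ (v 0) (v 1) := by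
  unfold zetaTerm zTerm lat
  rw [one_div, one_div, div_eq_mul_inv, add_assoc]

theorem zetaW_eq_zetaL (x : ℂ) (τ : ℍ) : zetaW x τ = zetaL x τ := by
  unfold zetaW zetaL
  simp_rw [zetaTerm_eq_zTerm]
  exact (finTwoArrowEquiv ℤ).symm.tsum_eq (fun v : Fin 2 → ℤ => zTerm x τ (v 0) (v 1)) |>.symm

theorem summable_cotTermC' {z : ℂ} {τ : ℍ} (h : NotLat z τ) : Summable (cotTermC z τ) := by
  have := summable_tailTerm h
  refine this.congr fun m => ?_
  rw [cotTermC_eq_tailTerm]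

theorem cotC_add_one' {z : ℂ} {τ : ℍ} (h : NotLat z τ) : cotC (z + 1) τ = cotC z τ := by
  rw [cotC_eq_CC, cotC_eq_CC, CC_add_one h]

theorem cotC_add_tau' {z : ℂ} {τ : ℍ} (h : NotLat z τ) :
    cotC (z + τ) τ = cotC z τ - 2 * π * I := by
  rw [cotC_eq_CC, cotC_eq_CC, CC_add_tau h]

/-- The bridge: the cotangent series is the Weierstrass zeta function minus `z G₂(τ)`. -/
theorem cotC_eq_zetaW_sub' {z : ℂ} {τ : ℍ} (h : NotLat z τ) :
    cotC z τ = zetaW z τ - z * EisensteinSeries.G2 τ := by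
  rw [cotC_eq_CC, zetaW_eq_zetaL, CC_eq_zetaL_sub h]

theorem cotC_S' {z : ℂ} {τ : ℍ} (h : NotLat z τ) :
    cotC (z / τ) (ModularGroup.S • τ) = τ * cotC z τ + 2 * π * I * z := by
  rw [cotC_eq_CC, cotC_eq_CC, CC_S h]

theorem cotC_T' (z : ℂ) {τ τ' : ℍ} (hτ : (τ' : ℂ) = τ + 1) : cotC z τ' = cotC z τ := by
  rw [cotC_eq_CC, cotC_eq_CC, CC_of_coe_eq_add_one z hτ]

end Fermat.Agent.S48x.Eis1
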