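import Mathlib

/-!
# P-S48 (Deligne-Serre), weight one Eisenstein series, part 1 (helper40): the cotangent sum

For `τ` in the upper half plane and `w` off the lattice `ℤ τ + ℤ` we study
`CC w τ = lim_M ∑_{|m| ≤ M} π cot(π (w + m τ))` (an absolutely convergent series once the terms
`m` and `-m` are grouped): quasi-periodicity `CC (w + 1) τ = CC w τ`,
`CC (w + τ) τ = CC w τ - 2 π i`, and invariance under `τ ↦ τ + 1`.
-/

set_option autoImplicit false
set_option linter.unusedVariables false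
open Complex Real Filter Topology Finset
open scoped UpperHalfPlane

noncomputable section
namespace Fermat.Agent.S48x.Eis1

/-- `e(z) = exp(2 π i z)`. -/
def ee (z : ℂ) : ℂ := cexp (2 * π * I * z)

theorem ee_add (z w : ℂ) : ee (z + w) = ee z * ee w := by
  unfold ee; rw [mul_add, Complex.exp_add]

theorem ee_neg (z : ℂ) : ee (-z) = (ee z)⁻¹ := by
  unfold ee; rw [mul_neg, Complex.exp_neg]

theorem ee_ne_zero (z : ℂ) : ee z ≠ 0 := Complex.exp_ne_zero _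

theorem ee_intCast (n : ℤ) : ee n = 1 := by
  unfold ee
  have := Complex.exp_int_mul_two_pi_mul_I n
  rw [← this]; congr 1; ring

theorem ee_add_intCast (z : ℂ) (n : ℤ) : ee (z + n) = ee z := by
  rw [ee_add, ee_intCast, mul_one]

theorem ee_add_one (z : ℂ) : ee (z + 1) = ee z := by
  simpa using ee_add_intCast z 1

theorem norm_ee (z : ℂ) : ‖ee z‖ = rexp (-2 * π * z.im) := by
  unfold ee
  rw [Complex.norm_exp]
  congr 1
  simp [mul_re, mul_im]

theorem ee_eq_one_iff (z : ℂ) : ee z = 1 ↔ ∃ n : ℤ, z = n := by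
  unfold ee
  rw [Complex.exp_eq_one_iff]
  constructor
  · rintro ⟨n, hn⟩
    refine ⟨n, ?_⟩
    have h2 : (2 * π * I : ℂ) ≠ 0 := by
      simp [Real.pi_ne_zero]
    apply mul_left_cancel₀ h2
    rw [hn]; ring
  · rintro ⟨n, rfl⟩
    exact ⟨n, by ring⟩

/-- `π cot(π z)` in terms of `e(z)`. -/
theorem pi_cot_eq (z : ℂ) (hz : ee z ≠ 1) :
    π * Complex.cot (π * z) = -(π * I) - 2 * π * I * (ee z / (1 - ee z)) := by
  rw [Complex.cot_pi_eq_exp_ratio]
  change _ * ((ee z + 1) / (I * (1 - ee z))) = _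
  have h1 : (1 - ee z) ≠ 0 := sub_ne_zero.mpr (Ne.symm hz)
  field_simp
  ring_nf
  simp [Complex.I_sq]
  ring

theorem pi_cot_eq' (z : ℂ) (hz : ee z ≠ 1) :
    π * Complex.cot (π * z) = π * I + 2 * π * I * (ee (-z) / (1 - ee (-z))) := by
  rw [pi_cot_eq z hz, ee_neg]
  have h0 := ee_ne_zero z
  have h1 : (1 - ee z) ≠ 0 := sub_ne_zero.mpr (Ne.symm hz)
  have h2 : (1 - (ee z)⁻¹) ≠ 0 := by
    intro h
    apply hz
    have : (ee z)⁻¹ = 1 := (sub_eq_zero.mp h).symm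
    simpa using inv_eq_one.mp this
  field_simp
  ring


/-- The quotient `x / (1 - x)` is small when `x` is. -/
theorem norm_div_one_sub_le {x : ℂ} (hx : ‖x‖ ≤ 1 / 2) : ‖x / (1 - x)‖ ≤ 2 * ‖x‖ := by
  have h1 : (1 : ℝ) / 2 ≤ ‖1 - x‖ := by
    have := norm_sub_norm_le (1 : ℂ) x
    rw [norm_one] at this
    linarith
  rw [norm_div, div_le_iff₀ (by linarith)]
  nlinarith [norm_nonneg x]

theorem tendsto_ee_atTop (w : ℂ) (τ : ℍ) :
    Tendsto (fun M : ℕ => ee (w + M * τ)) atTop (𝓝 0) := by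
  rw [tendsto_zero_iff_norm_tendsto_zero]
  have h : ∀ M : ℕ, ‖ee (w + M * τ)‖ = rexp (-2 * π * w.im) * (rexp (-2 * π * τ.im)) ^ M := by
    intro M
    rw [norm_ee, ← Real.exp_nat_mul, ← Real.exp_add]
    congr 1
    simp [mul_im]
    ring
  simp_rw [h]
  rw [← mul_zero (rexp (-2 * π * w.im))]
  apply Tendsto.const_mul
  apply tendsto_pow_atTop_nhds_zero_of_lt_one (Real.exp_pos _).le
  rw [Real.exp_lt_one_iff] 
  have := τ.im_pos
  have := Real.pi_pos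
  nlinarith


/-- The point `w` does not lie on the lattice `ℤ τ + ℤ`. -/
def NotLat (w : ℂ) (τ : ℍ) : Prop := ∀ m n : ℤ, w + m * (τ : ℂ) + n ≠ 0

theorem NotLat.ee_ne_one {w : ℂ} {τ : ℍ} (h : NotLat w τ) (m : ℤ) : ee (w + m * τ) ≠ 1 := by
  intro h1
  obtain ⟨n, hn⟩ := (ee_eq_one_iff _).mp h1
  apply h m (-n)
  rw [hn]; push_cast; ring

theorem NotLat.neg {w : ℂ} {τ : ℍ} (h : NotLat w τ) : NotLat (-w) τ := by
  intro m n h0
  apply h (-m) (-n)
  have : w + ((-m : ℤ) : ℂ) * τ + ((-n : ℤ) : ℂ) = -(-w + m * τ + n) := by push_cast; ring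
  rw [this, h0, neg_zero]

theorem NotLat.add_lat {w : ℂ} {τ : ℍ} (h : NotLat w τ) (a b : ℤ) : NotLat (w + a * τ + b) τ := by
  intro m n h0
  apply h (a + m) (b + n)
  rw [← h0]; push_cast; ring

/-- `π cot(π z)`. -/
def pc (z : ℂ) : ℂ := π * Complex.cot (π * z)

theorem pc_eq (z : ℂ) (hz : ee z ≠ 1) : pc z = -(π * I) - 2 * π * I * (ee z / (1 - ee z)) :=
  pi_cot_eq z hz

theorem pc_eq' (z : ℂ) (hz : ee z ≠ 1) : pc z = π * I + 2 * π * I * (ee (-z) / (1 - ee (-z))) :=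
  pi_cot_eq' z hz

theorem pc_add_intCast (z : ℂ) (n : ℤ) : pc (z + n) = pc z := by
  by_cases hz : ee z = 1
  · obtain ⟨k, rfl⟩ := (ee_eq_one_iff z).mp hz
    unfold pc
    have h1 : ∀ j : ℤ, Complex.cot (π * (j : ℂ)) = 0 := by
      intro j
      rw [Complex.cot_eq_cos_div_sin, mul_comm]
      rw [Complex.sin_int_mul_pi, div_zero]
    have : ((k : ℂ) + n) = ((k + n : ℤ) : ℂ) := by push_cast; ring
    rw [this, h1, h1]
  · have hz' : ee (z + n) ≠ 1 := by rwa [ee_add_intCast]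
    rw [pc_eq z hz, pc_eq _ hz', ee_add_intCast]

theorem pc_add_one (z : ℂ) : pc (z + 1) = pc z := by simpa using pc_add_intCast z 1

theorem pc_neg (z : ℂ) : pc (-z) = -pc z := by
  unfold pc
  rw [mul_neg, Complex.cot_eq_cos_div_sin, Complex.cot_eq_cos_div_sin, Complex.cos_neg,
    Complex.sin_neg, div_neg, mul_neg]

/-- Tail term of the cotangent sum. -/
def tailTerm (w : ℂ) (τ : ℍ) (m : ℕ) : ℂ := pc (w + (m + 1 : ℕ) * τ) + pc (w - (m + 1 : ℕ) * τ)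

/-- `C(w, τ) = lim_M ∑_{|m| ≤ M} π cot(π (w + m τ))`. -/
def CC (w : ℂ) (τ : ℍ) : ℂ := pc w + ∑' m : ℕ, tailTerm w τ m

theorem tailTerm_eq {w : ℂ} {τ : ℍ} (h : NotLat w τ) (m : ℕ) :
    tailTerm w τ m = -(2 * π * I) * (ee (w + (m + 1 : ℕ) * τ) / (1 - ee (w + (m + 1 : ℕ) * τ))
      - ee (-w + (m + 1 : ℕ) * τ) / (1 - ee (-w + (m + 1 : ℕ) * τ))) := by
  unfold tailTerm
  have h1 : ee (w + ((m + 1 : ℕ) : ℂ) * τ) ≠ 1 := by
    have := h.ee_ne_one ((m + 1 : ℕ) : ℤ)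
    simpa using this
  have h2 : ee (w - ((m + 1 : ℕ) : ℂ) * τ) ≠ 1 := by
    have := h.ee_ne_one (-((m + 1 : ℕ) : ℤ))
    have e : w + ((-((m + 1 : ℕ) : ℤ) : ℤ) : ℂ) * τ = w - ((m + 1 : ℕ) : ℂ) * τ := by
      push_cast; ring
    rwa [e] at this
  rw [pc_eq _ h1, pc_eq' _ h2]
  have e : -(w - ((m + 1 : ℕ) : ℂ) * τ) = -w + ((m + 1 : ℕ) : ℂ) * τ := by ring
  rw [e]
  ring


theorem norm_ee_add_nat_mul (w : ℂ) (τ : ℍ) (M : ℕ) :
    ‖ee (w + M * τ)‖ = rexp (-2 * π * w.im) * (rexp (-2 * π * τ.im)) ^ M := by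
  rw [norm_ee, ← Real.exp_nat_mul, ← Real.exp_add]
  congr 1
  simp [mul_im]
  ring

theorem exp_neg_two_pi_im_lt_one (τ : ℍ) : rexp (-2 * π * τ.im) < 1 := by
  rw [Real.exp_lt_one_iff]
  have := τ.im_pos
  have := Real.pi_pos
  nlinarith

/-- Geometric bound for `e / (1 - e)` along `w + M τ`. -/
theorem eventually_norm_ee_div_le (w : ℂ) (τ : ℍ) :
    ∀ᶠ M : ℕ in atTop, ‖ee (w + M * τ) / (1 - ee (w + M * τ))‖ ≤
      2 * (rexp (-2 * π * w.im) * (rexp (-2 * π * τ.im)) ^ M) := by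
  have h := (tendsto_ee_atTop w τ).norm
  rw [norm_zero] at h
  have h2 : ∀ᶠ M : ℕ in atTop, ‖ee (w + M * τ)‖ ≤ 1 / 2 :=
    (h.eventually (Iio_mem_nhds (by norm_num : (0 : ℝ) < 1 / 2))).mono fun M hM => le_of_lt hM
  filter_upwards [h2] with M hM
  rw [← norm_ee_add_nat_mul]
  exact norm_div_one_sub_le hM

theorem summable_ee_div (w : ℂ) (τ : ℍ) :
    Summable fun m : ℕ => ee (w + (m + 1 : ℕ) * τ) / (1 - ee (w + (m + 1 : ℕ) * τ)) := by
  have hs : Summable fun M : ℕ => ee (w + M * τ) / (1 - ee (w + M * τ)) := by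
    apply Summable.of_norm_bounded_eventually_nat
      (g := fun M : ℕ => 2 * (rexp (-2 * π * w.im) * (rexp (-2 * π * τ.im)) ^ M))
    · apply Summable.mul_left
      apply Summable.mul_left
      exact summable_geometric_of_lt_one (Real.exp_pos _).le (exp_neg_two_pi_im_lt_one τ)
    · exact eventually_norm_ee_div_le w τ
  exact (summable_nat_add_iff 1).mpr hs

theorem summable_tailTerm {w : ℂ} {τ : ℍ} (h : NotLat w τ) : Summable (tailTerm w τ) := by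
  have h1 := summable_ee_div w τ
  have h2 := summable_ee_div (-w) τ
  have := ((h1.sub h2).mul_left (-(2 * π * I)))
  refine this.congr fun m => ?_
  rw [tailTerm_eq h]

theorem sum_Icc_eq_add_sum_range (f : ℤ → ℂ) (M : ℕ) :
    ∑ m ∈ Icc (-(M : ℤ)) M, f m = f 0 + ∑ m ∈ range M, (f ((m + 1 : ℕ) : ℤ) + f (-((m + 1 : ℕ) : ℤ))) := by
  induction M with
  | zero => simp
  | succ M ih =>
    have := Finset.sum_Icc_succ_eq_add_endpoints f (N := M)
    rw [Finset.sum_range_succ, ← add_assoc, ← ih]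
    push_cast at this ⊢
    rw [this]
    ring

/-- The symmetric partial sums of `π cot(π (w + m τ))` converge to `C(w, τ)`. -/
theorem tendsto_sum_Icc_pc {w : ℂ} {τ : ℍ} (h : NotLat w τ) :
    Tendsto (fun M : ℕ => ∑ m ∈ Icc (-(M : ℤ)) M, pc (w + m * τ)) atTop (𝓝 (CC w τ)) := by
  have h1 := (summable_tailTerm h).hasSum.tendsto_sum_nat
  have h2 : Tendsto (fun M : ℕ => pc w + ∑ m ∈ range M, tailTerm w τ m) atTop (𝓝 (CC w τ)) :=
    h1.const_add _
  refine h2.congr fun M => ?_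
  rw [sum_Icc_eq_add_sum_range]
  congr 1
  · simp
  · apply Finset.sum_congr rfl
    intro m _
    unfold tailTerm
    push_cast
    ring_nf


theorem tendsto_pc_add_nat_mul {w : ℂ} {τ : ℍ} (h : NotLat w τ) :
    Tendsto (fun M : ℕ => pc (w + M * τ)) atTop (𝓝 (-(π * I))) := by
  have h1 : ∀ M : ℕ, pc (w + M * τ) =
      -(π * I) - 2 * π * I * (ee (w + M * τ) / (1 - ee (w + M * τ))) := by
    intro M
    apply pc_eq
    simpa using h.ee_ne_one (M : ℤ)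
  simp_rw [h1]
  have h2 := tendsto_ee_atTop w τ
  have h3 : Tendsto (fun M : ℕ => ee (w + M * τ) / (1 - ee (w + M * τ))) atTop (𝓝 (0 / (1 - 0))) :=
    h2.div (tendsto_const_nhds.sub h2) (by norm_num)
  have h4 := (h3.const_mul (2 * π * I)).const_sub (-(π * I))
  simpa using h4

theorem tendsto_pc_sub_nat_mul {w : ℂ} {τ : ℍ} (h : NotLat w τ) :
    Tendsto (fun M : ℕ => pc (w - M * τ)) atTop (𝓝 (π * I)) := by
  have h1 := (tendsto_pc_add_nat_mul h.neg).neg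
  rw [neg_neg] at h1
  refine h1.congr fun M => ?_
  rw [← pc_neg]; congr 1; ring

theorem CC_add_one {w : ℂ} {τ : ℍ} (h : NotLat w τ) : CC (w + 1) τ = CC w τ := by
  have h' : NotLat (w + 1) τ := by simpa using h.add_lat 0 1
  have h1 := tendsto_sum_Icc_pc h'
  have h2 := tendsto_sum_Icc_pc h
  refine tendsto_nhds_unique (h1.congr fun M => ?_) h2
  apply Finset.sum_congr rfl
  intro m _
  rw [show w + 1 + (m : ℂ) * τ = w + m * τ + 1 by ring, pc_add_one]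

theorem CC_add_tau {w : ℂ} {τ : ℍ} (h : NotLat w τ) :
    CC (w + τ) τ = CC w τ - 2 * π * I := by
  have h' : NotLat (w + τ) τ := by simpa using h.add_lat 1 0
  have h1 := tendsto_sum_Icc_pc h'
  have h2 := tendsto_sum_Icc_pc h
  have h3 : Tendsto (fun M : ℕ => pc (w + (M + 1 : ℕ) * τ)) atTop (𝓝 (-(π * I))) :=
    (tendsto_pc_add_nat_mul h).comp (tendsto_add_atTop_nat 1)
  have h4 := tendsto_pc_sub_nat_mul h
  have h5 := (h2.add h3).sub h4
  have h6 : CC w τ + -(π * I) - π * I = CC w τ - 2 * π * I := by ring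
  rw [h6] at h5
  refine tendsto_nhds_unique h1 (h5.congr fun M => ?_)
  -- shift the summation index
  have e1 : ∀ m : ℤ, pc (w + τ + m * τ) = pc (w + ((m + 1 : ℤ) : ℂ) * τ) := by
    intro m; congr 1; push_cast; ring
  simp_rw [e1]
  have e2 : ∑ m ∈ Icc (-(M : ℤ)) M, pc (w + ((m + 1 : ℤ) : ℂ) * τ) =
      ∑ m ∈ Icc (-(M : ℤ) + 1) (M + 1), pc (w + (m : ℂ) * τ) := by
    rw [← Finset.map_add_right_Icc, Finset.sum_map]
    rfl
  rw [e2]
  -- compare the two intervals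
  have e3 : Icc (-(M : ℤ)) (M + 1) = insert (-(M : ℤ)) (Icc (-(M : ℤ) + 1) (M + 1)) := by
    ext x; simp only [mem_Icc, mem_insert]; omega
  have e4 : Icc (-(M : ℤ)) (M + 1) = insert ((M : ℤ) + 1) (Icc (-(M : ℤ)) M) := by
    ext x; simp only [mem_Icc, mem_insert]; omega
  have s1 := Finset.sum_insert (f := fun m : ℤ => pc (w + (m : ℂ) * τ))
    (show (-(M : ℤ)) ∉ Icc (-(M : ℤ) + 1) (M + 1) by simp)
  have s2 := Finset.sum_insert (f := fun m : ℤ => pc (w + (m : ℂ) * τ))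
    (show ((M : ℤ) + 1) ∉ Icc (-(M : ℤ)) M by simp)
  rw [← e3] at s1
  rw [← e4] at s2
  have s3 := s1.symm.trans s2
  push_cast at s3 ⊢
  have e5 : w + -(M : ℂ) * τ = w - M * τ := by ring
  rw [e5] at s3
  linear_combination -s3


theorem NotLat.of_coe_eq_add_one {w : ℂ} {τ τ' : ℍ} (hτ : (τ' : ℂ) = τ + 1) (h : NotLat w τ) :
    NotLat w τ' := by
  intro m n h0
  apply h m (m + n)
  rw [← h0, hτ]; push_cast; ring

/-- `C(w, τ + 1) = C(w, τ)`. -/
theorem CC_of_coe_eq_add_one (w : ℂ) {τ τ' : ℍ} (hτ : (τ' : ℂ) = τ + 1) :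
    CC w τ' = CC w τ := by
  unfold CC
  congr 1
  apply tsum_congr
  intro m
  unfold tailTerm
  rw [hτ]
  have e1 : w + ((m + 1 : ℕ) : ℂ) * ((τ : ℂ) + 1) = w + ((m + 1 : ℕ) : ℂ) * τ + ((m + 1 : ℕ) : ℤ) := by
    push_cast; ring
  have e2 : w - ((m + 1 : ℕ) : ℂ) * ((τ : ℂ) + 1) =
      w - ((m + 1 : ℕ) : ℂ) * τ + ((-((m + 1 : ℕ) : ℤ) : ℤ) : ℂ) := by
    push_cast; ring
  rw [e1, e2, pc_add_intCast, pc_add_intCast]

theorem CC_neg {w : ℂ} {τ : ℍ} (h : NotLat w τ) : CC (-w) τ = -CC w τ := by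
  unfold CC
  rw [pc_neg, neg_add, ← tsum_neg]
  congr 1
  apply tsum_congr
  intro m
  unfold tailTerm
  rw [show -w + ((m + 1 : ℕ) : ℂ) * τ = -(w - ((m + 1 : ℕ) : ℂ) * τ) by ring,
    show -w - ((m + 1 : ℕ) : ℂ) * τ = -(w + ((m + 1 : ℕ) : ℂ) * τ) by ring, pc_neg, pc_neg]
  ring

end Fermat.Agent.S48x.Eis1
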