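import Fermat.Agent.S48x.EWP.Slash
import Fermat.Agent.S48x.Eis1.Holo
import Fermat.Agent.S23.UConj
import Fermat.Agent.S23.UFunction
import Fermat.Agent.S48x.EWP.MulTau

/-!
# P-S48 (E-WP): the functions `τ ↦ Zv l a 0 (l τ)` at all cusps (helper40)

`Fv l hl a τ = Zv l a 0 (l τ)` for `l ∤ a`:

* `Fv_eq_of_coe` : any presentation of `l τ` gives `Fv`;
* `mdiff_Fv` : holomorphy;
* `Fv_slash_SL` : the translate by an arbitrary `γ ∈ SL(2, ℤ)` is `d⁻¹ Zv l a' b' ((p τ + b)/d)`;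
* `isBoundedAtImInfty_Fv_slash` : boundedness at all cusps;
* `Fv_slash_Gamma0` : `Fv l a ∣[1] γ = Fv l (a γ₀₀)` for `γ ∈ Γ₀(l)`;
* `Fv_add_left`, `Fv_congr` : `Fv l a` only depends on `a mod l`.
-/

set_option autoImplicit false
set_option linter.unusedVariables false

open Complex Real Filter Topology Finset
open UpperHalfPlane hiding I
open scoped Manifold MatrixGroups ModularForm

noncomputable section
namespace Fermat.Agent.S48x.Eis1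

open Fermat.Agent.S48x.EWP (Zv Zv_slash Zv_smul not_dvd_vecMul)
open Fermat.Agent.S23.UConj (affMap coe_affMap exists_triangular tendsto_affMap
  mdifferentiable_comp_affMap)

theorem Zv_add_mul_right' {l : ℕ} (hl : 0 < l) {a b : ℤ} (hv : ¬ ((l : ℤ) ∣ a ∧ (l : ℤ) ∣ b))
    (k : ℤ) (τ : ℍ) : Zv l a (b + l * k) τ = Zv l a b τ := by
  have hstep : ∀ b' : ℤ, ¬ ((l : ℤ) ∣ a ∧ (l : ℤ) ∣ b') → ∀ k : ℕ,
      Zv l a (b' + l * k) τ = Zv l a b' τ := by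
    intro b' hv' k
    induction k with
    | zero => simp
    | succ k ih =>
      have hv'' : ¬ ((l : ℤ) ∣ a ∧ (l : ℤ) ∣ (b' + l * k)) := by
        rintro ⟨h1, h2⟩
        exact hv' ⟨h1, (Int.dvd_add_left (Dvd.intro _ rfl)).mp h2⟩
      have := Zv_add_right' hl hv'' τ
      rw [← ih, ← this]
      congr 1
      push_cast; ring
  obtain ⟨n, rfl | rfl⟩ := Int.eq_nat_or_neg k
  · exact hstep b hv n
  · have hv' : ¬ ((l : ℤ) ∣ a ∧ (l : ℤ) ∣ (b + l * -(n : ℤ))) := by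
      rintro ⟨h1, h2⟩
      refine hv ⟨h1, ?_⟩
      have : (l : ℤ) ∣ l * -(n : ℤ) := Dvd.intro _ rfl
      exact (Int.dvd_add_left this).mp h2
    have := hstep (b + l * -(n : ℤ)) hv' n
    rw [← this]
    congr 1
    ring

/-- the point `l τ` of the upper half plane -/
def scl (l : ℕ) (hl : 0 < l) (τ : ℍ) : ℍ := affMap l 1 0 hl one_pos τ

theorem coe_scl (l : ℕ) (hl : 0 < l) (τ : ℍ) : ((scl l hl τ : ℍ) : ℂ) = (l : ℂ) * τ := by
  rw [scl, coe_affMap]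
  simp

theorem scl_eq_of_coe {l : ℕ} (hl : 0 < l) {τ σ : ℍ} (h : (σ : ℂ) = (l : ℂ) * τ) :
    σ = scl l hl τ := by
  apply UpperHalfPlane.ext
  rw [coe_scl, h]

/-- the function `τ ↦ Zv l a 0 (l τ)` -/
def Fv (l : ℕ) (hl : 0 < l) (a : ℤ) (τ : ℍ) : ℂ := Zv l a 0 (scl l hl τ)

theorem Fv_eq_of_coe {l : ℕ} (hl : 0 < l) (a : ℤ) (s : ℍ → ℍ)
    (hs : ∀ τ : ℍ, ((s τ : ℍ) : ℂ) = (l : ℂ) * τ) :
    (fun τ : ℍ => Zv l a 0 (s τ)) = Fv l hl a := by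
  funext τ
  rw [Fv, scl_eq_of_coe hl (hs τ)]

theorem Fv_eq_mulTau {l : ℕ} (hl : 0 < l) (a : ℤ) :
    (fun τ : ℍ => Zv l a 0 (EWP.mulTau l hl τ)) = Fv l hl a :=
  Fv_eq_of_coe hl a _ (fun τ => EWP.coe_mulTau l hl τ)

theorem Fv_apply_mulTau {l : ℕ} (hl : 0 < l) (a : ℤ) (τ : ℍ) :
    Fv l hl a τ = Zv l a 0 (EWP.mulTau l hl τ) :=
  (congrFun (Fv_eq_mulTau hl a) τ).symm

theorem not_dvd_pair {l : ℕ} {a : ℤ} (ha : ¬ (l : ℤ) ∣ a) :
    ¬ ((l : ℤ) ∣ a ∧ (l : ℤ) ∣ (0 : ℤ)) := fun h => ha h.1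

theorem mdiff_Fv {l : ℕ} (hl : 0 < l) {a : ℤ} (ha : ¬ (l : ℤ) ∣ a) : MDiff (Fv l hl a) :=
  mdifferentiable_comp_affMap l 1 0 hl one_pos (mdifferentiable_Zv' l hl a 0 (not_dvd_pair ha))

theorem Fv_add_left {l : ℕ} (hl : 0 < l) {a : ℤ} (ha : ¬ (l : ℤ) ∣ a) :
    Fv l hl (a + l) = Fv l hl a := by
  funext τ
  exact Zv_add_left' hl (not_dvd_pair ha) _

theorem Fv_emod {l : ℕ} (hl : 0 < l) {a : ℤ} (ha : ¬ (l : ℤ) ∣ a) :
    Fv l hl a = Fv l hl (a % l) := by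
  funext τ
  rw [Fv, Fv, (Zv_eq_emod hl (not_dvd_pair ha)).2]

theorem Fv_congr {l : ℕ} (hl : 0 < l) {a a' : ℤ} (ha : ¬ (l : ℤ) ∣ a)
    (h : a % l = a' % l) : Fv l hl a = Fv l hl a' := by
  have ha' : ¬ (l : ℤ) ∣ a' := by
    intro hd
    apply ha
    rw [Int.dvd_iff_emod_eq_zero] at hd ⊢
    rw [h, hd]
  rw [Fv_emod hl ha, Fv_emod hl ha', h]

/-- The translate of `Fv l a` by an arbitrary element of `SL(2, ℤ)`. -/
theorem Fv_slash_SL {l : ℕ} (hl : 0 < l) {a : ℤ} (ha : ¬ (l : ℤ) ∣ a) (γ : SL(2, ℤ)) :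
    ∃ (p d : ℕ) (b : ℤ) (hp : 0 < p) (hd : 0 < d) (a' b' : ℤ), p * d = l ∧
      ¬ ((l : ℤ) ∣ a' ∧ (l : ℤ) ∣ b') ∧
      Fv l hl a ∣[(1 : ℤ)] γ = fun z => (d : ℂ)⁻¹ * Zv l a' b' (affMap p d b hp hd z) := by
  obtain ⟨p, d, b, hp, hd, γ', hpd, -, h⟩ := exists_triangular l hl γ
  have hv' := not_dvd_vecMul (not_dvd_pair ha) γ'
  refine ⟨p, d, b, hp, hd, _, _, hpd, hv', ?_⟩
  funext z
  obtain ⟨h1, h2⟩ := h z
  have hd0 : (d : ℂ) ≠ 0 := by exact_mod_cast hd.ne'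
  have hD : denom γ' (affMap p d b hp hd z) ≠ 0 := denom_ne_zero γ' _
  rw [ModularForm.SL_slash_apply, Fv, scl, h1, Zv_smul hl (not_dvd_pair ha), h2, zpow_neg, zpow_one]
  field_simp

theorem isBoundedAtImInfty_Fv_slash {l : ℕ} (hl : 0 < l) {a : ℤ} (ha : ¬ (l : ℤ) ∣ a)
    (γ : SL(2, ℤ)) : IsBoundedAtImInfty (Fv l hl a ∣[(1 : ℤ)] γ) := by
  obtain ⟨p, d, b, hp, hd, a', b', -, hv', h⟩ := Fv_slash_SL hl ha γ
  rw [h]
  have h0 := isBoundedAtImInfty_Zv' l hl a' b' hv'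
  have h1 : IsBoundedAtImInfty (fun z : ℍ => Zv l a' b' (affMap p d b hp hd z)) := by
    rw [IsBoundedAtImInfty, BoundedAtFilter] at h0 ⊢
    exact h0.comp_tendsto (tendsto_affMap p d b hp hd)
  have hc : IsBoundedAtImInfty (fun _ : ℍ => ((d : ℂ)⁻¹)) := by
    rw [IsBoundedAtImInfty, BoundedAtFilter]
    exact Filter.const_boundedAtFilter _ _
  exact hc.mul h1

/-- The action of `Γ₀(l)` on the `Fv l a`. -/
theorem Fv_slash_Gamma0 {l : ℕ} (hl : 0 < l) {a : ℤ} (ha : ¬ (l : ℤ) ∣ a) (γ : SL(2, ℤ))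
    (hγ : γ ∈ CongruenceSubgroup.Gamma0 l) :
    Fv l hl a ∣[(1 : ℤ)] γ = Fv l hl (a * γ 0 0) := by
  rw [CongruenceSubgroup.Gamma0_mem, ZMod.intCast_zmod_eq_zero_iff_dvd] at hγ
  obtain ⟨c', hc⟩ := hγ
  have : NeZero l := ⟨hl.ne'⟩
  set γ' := Fermat.Agent.S23.UFunction.conjMat l γ c' hc with hγ'
  have hsc : ∀ z : ℍ, scl l hl (γ • z) = γ' • scl l hl z := by
    intro z
    have h1 := Fermat.Agent.S23.UFunction.scale_smul l γ c' hc z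
    have e : ∀ w : ℍ, Fermat.Agent.S23.UFunction.scale l w = scl l hl w := fun w =>
      scl_eq_of_coe hl (Fermat.Agent.S23.UFunction.coe_scale l w)
    rw [e, e] at h1
    exact h1
  have hden : ∀ z : ℍ, denom γ' (scl l hl z) = denom γ z := by
    intro z
    have h1 := Fermat.Agent.S23.UFunction.denom_conjMat l γ c' hc z
    have e : Fermat.Agent.S23.UFunction.scale l z = scl l hl z :=
      scl_eq_of_coe hl (Fermat.Agent.S23.UFunction.coe_scale l z)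
    rw [e] at h1
    exact h1
  have hv' := not_dvd_vecMul (not_dvd_pair ha) γ'
  funext z
  have hD : denom γ z ≠ 0 := denom_ne_zero γ z
  rw [ModularForm.SL_slash_apply, Fv, hsc, Zv_smul hl (not_dvd_pair ha), hden, zpow_neg, zpow_one,
    mul_comm (denom γ z), mul_assoc, mul_inv_cancel₀ hD, mul_one]
  have e00 : γ' 0 0 = γ 0 0 := rfl
  have e01 : γ' 0 1 = l * γ 0 1 := rfl
  have e10 : γ' 1 0 = c' := rfl
  rw [e00, e01, e10] at hv' ⊢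
  simp only [zero_mul, add_zero] at hv' ⊢
  -- remove the multiple of `l` in the second coordinate
  have hv'' : ¬ ((l : ℤ) ∣ a * γ 0 0 ∧ (l : ℤ) ∣ (0 : ℤ)) := by
    rintro ⟨h1, -⟩
    exact hv' ⟨h1, ⟨a * γ 0 1, by ring⟩⟩
  have hk := Zv_add_mul_right' hl hv'' (a * γ 0 1) (scl l hl z)
  rw [Fv]
  rw [← hk]
  congr 1
  ring

end Fermat.Agent.S48x.Eis1
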