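import Fermat.Agent.S48x.Eis1.Cusps
import Fermat.Prelude.Def_FLTPrelim_Modularity

/-!
# P-S48 (E-WP): the weight one Eisenstein series with character as a modular form (helper40)

For `1 < l` and a Dirichlet character `ψ` modulo `l`,
`eisPsiFun l hl ψ τ = (-l / (2 π i)) ∑_{a < l} ψ(a) Zv l a 0 (l τ)`
is a modular form of weight one on `Γ₁(l)` (`eisPsi`), with
`eisPsiFun ∣[1] γ = ψ(γ₁₁) • eisPsiFun` for `γ ∈ Γ₀(l)` (`eisPsiFun_slash_Gamma0`).
-/

set_option autoImplicit false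
set_option linter.unusedVariables false

open Complex Real Filter Topology Finset
open UpperHalfPlane hiding I
open scoped Manifold MatrixGroups ModularForm

noncomputable section
namespace Fermat.Agent.S48x.Eis1

open Fermat.Agent.S48x.EWP (Zv mulTau)

/-- The weight one Eisenstein series attached to the pair of characters `(1, ψ)`, up to the
normalisation `2 l`. -/
def eisPsiFun (l : ℕ) (hl : 0 < l) (ψ : DirichletCharacter ℂ l) (τ : ℍ) : ℂ :=
  (-(l : ℂ) / (2 * π * I)) *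
    ∑ a ∈ Finset.range l, ψ ((a : ℕ) : ZMod l) * Zv l (a : ℤ) 0 (mulTau l hl τ)

/-- the value of `Fv` at the representative of a residue class -/
def FvZ (l : ℕ) (hl : 0 < l) (x : ZMod l) : ℍ → ℂ := Fv l hl ((x.val : ℕ) : ℤ)

theorem eisPsiFun_eq_sum (l : ℕ) [NeZero l] (hl : 0 < l) (ψ : DirichletCharacter ℂ l) :
    eisPsiFun l hl ψ = (-(l : ℂ) / (2 * π * I)) • ∑ x : ZMod l, ψ x • FvZ l hl x := by
  funext τ
  rw [eisPsiFun, Pi.smul_apply, smul_eq_mul, Finset.sum_apply]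
  congr 1
  refine Finset.sum_nbij' (fun a => ((a : ℕ) : ZMod l)) (fun x => x.val) ?_ ?_ ?_ ?_ ?_
  · intro a _
    exact Finset.mem_univ _
  · intro x _
    exact Finset.mem_range.mpr (ZMod.val_lt x)
  · intro a ha
    exact ZMod.val_natCast_of_lt (Finset.mem_range.mp ha)
  · intro x _
    exact ZMod.natCast_zmod_val x
  · intro a ha
    rw [Pi.smul_apply, smul_eq_mul, FvZ, ZMod.val_natCast_of_lt (Finset.mem_range.mp ha),
      Fv_apply_mulTau]

theorem not_dvd_val {l : ℕ} [NeZero l] (hl : 0 < l) {x : ZMod l} (hx : x ≠ 0) :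
    ¬ (l : ℤ) ∣ ((x.val : ℕ) : ℤ) := by
  intro h
  apply hx
  have h1 : l ∣ x.val := by exact_mod_cast h
  have h2 := Nat.eq_zero_of_dvd_of_lt h1 (ZMod.val_lt x)
  exact (ZMod.val_eq_zero x).mp h2

theorem psi_zero {l : ℕ} (hl1 : 1 < l) (ψ : DirichletCharacter ℂ l) : ψ 0 = 0 := by
  have : Fact (1 < l) := ⟨hl1⟩
  exact MulChar.map_zero ψ

theorem mdiff_term {l : ℕ} [NeZero l] (hl : 0 < l) (hl1 : 1 < l) (ψ : DirichletCharacter ℂ l) (x : ZMod l) :
    MDiff (ψ x • FvZ l hl x) := by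
  by_cases hx : x = 0
  · rw [hx, psi_zero hl1, zero_smul]
    exact mdifferentiable_const
  · exact (mdiff_Fv hl (not_dvd_val hl hx)).const_smul (ψ x)

theorem mdiff_eisPsiFun {l : ℕ} [NeZero l] (hl : 0 < l) (hl1 : 1 < l) (ψ : DirichletCharacter ℂ l) :
    MDiff (eisPsiFun l hl ψ) := by
  rw [eisPsiFun_eq_sum]
  apply MDifferentiable.const_smul
  have h : ∀ s : Finset (ZMod l), MDiff (∑ x ∈ s, ψ x • FvZ l hl x) := by
    intro s
    classical
    induction s using Finset.induction_on with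
    | empty =>
      rw [Finset.sum_empty]
      exact mdifferentiable_const
    | insert i t hi IH =>
      rw [Finset.sum_insert hi]
      exact (mdiff_term hl hl1 ψ i).add IH
  exact h _

theorem eisPsiFun_slash {l : ℕ} [NeZero l] (hl : 0 < l) (ψ : DirichletCharacter ℂ l) (γ : SL(2, ℤ)) :
    eisPsiFun l hl ψ ∣[(1 : ℤ)] γ =
      (-(l : ℂ) / (2 * π * I)) • ∑ x : ZMod l, ψ x • (FvZ l hl x ∣[(1 : ℤ)] γ) := by
  rw [eisPsiFun_eq_sum, ModularForm.SL_smul_slash, SlashAction.sum_slash]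
  congr 1
  refine Finset.sum_congr rfl fun x _ => ?_
  rw [ModularForm.SL_smul_slash]

theorem isBoundedAtImInfty_eisPsiFun_slash {l : ℕ} [NeZero l] (hl : 0 < l) (hl1 : 1 < l)
    (ψ : DirichletCharacter ℂ l) (γ : SL(2, ℤ)) :
    IsBoundedAtImInfty (eisPsiFun l hl ψ ∣[(1 : ℤ)] γ) := by
  rw [eisPsiFun_slash]
  have hc : ∀ c : ℂ, IsBoundedAtImInfty (fun _ : ℍ => c) := fun c => by
    rw [IsBoundedAtImInfty, BoundedAtFilter]
    exact Filter.const_boundedAtFilter _ c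
  have hterm : ∀ x : ZMod l, IsBoundedAtImInfty (ψ x • (FvZ l hl x ∣[(1 : ℤ)] γ)) := by
    intro x
    by_cases hx : x = 0
    · rw [hx, psi_zero hl1, zero_smul]
      exact hc 0
    · exact (hc (ψ x)).mul (isBoundedAtImInfty_Fv_slash hl (not_dvd_val hl hx) γ)
  have h : ∀ s : Finset (ZMod l),
      IsBoundedAtImInfty (∑ x ∈ s, ψ x • (FvZ l hl x ∣[(1 : ℤ)] γ)) := by
    intro s
    classical
    induction s using Finset.induction_on with
    | empty =>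
      rw [Finset.sum_empty]
      exact hc 0
    | insert i t hi IH =>
      rw [Finset.sum_insert hi]
      exact (hterm i).add IH
  exact (hc _).mul (h _)

/-- **The nebentypus law.** -/
theorem eisPsiFun_slash_Gamma0 {l : ℕ} [NeZero l] (hl : 0 < l) (hl1 : 1 < l) (ψ : DirichletCharacter ℂ l)
    (γ : SL(2, ℤ)) (hγ : γ ∈ CongruenceSubgroup.Gamma0 l) :
    eisPsiFun l hl ψ ∣[(1 : ℤ)] γ = ψ ((γ 1 1 : ℤ) : ZMod l) • eisPsiFun l hl ψ := by
  have hγ0 := hγ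
  rw [CongruenceSubgroup.Gamma0_mem] at hγ0
  -- `γ₀₀ γ₁₁ = 1` in `ZMod l`
  have hdet : ((γ 0 0 : ℤ) : ZMod l) * ((γ 1 1 : ℤ) : ZMod l) = 1 := by
    have h := γ.det_coe
    rw [Matrix.det_fin_two] at h
    have h2 := congrArg (fun n : ℤ => (n : ZMod l)) h
    simp only [Int.cast_sub, Int.cast_mul, Int.cast_one] at h2
    rw [hγ0, mul_zero, sub_zero] at h2
    exact h2
  set u : (ZMod l)ˣ := ⟨((γ 0 0 : ℤ) : ZMod l), ((γ 1 1 : ℤ) : ZMod l), hdet,
    by rw [mul_comm]; exact hdet⟩ with hu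
  -- the action on a single term
  have hterm : ∀ x : ZMod l, ψ x • (FvZ l hl x ∣[(1 : ℤ)] γ) = ψ x • FvZ l hl (x * u) := by
    intro x
    by_cases hx : x = 0
    · rw [hx, psi_zero hl1, zero_smul, zero_smul]
    · congr 1
      have hnd := not_dvd_val hl hx
      rw [FvZ, Fv_slash_Gamma0 hl hnd γ hγ, FvZ]
      have hnd' : ¬ (l : ℤ) ∣ ((x.val : ℕ) : ℤ) * γ 0 0 := by
        intro h
        have h1 : (((((x.val : ℕ) : ℤ) * γ 0 0 : ℤ)) : ZMod l) = 0 :=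
          (ZMod.intCast_zmod_eq_zero_iff_dvd _ l).mpr h
        rw [Int.cast_mul, Int.cast_natCast, ZMod.natCast_zmod_val] at h1
        have h2 : x * (u : ZMod l) = 0 := h1
        exact hx (by simpa using h2)
      apply Fv_congr hl hnd'
      have h3 : ((((x.val : ℕ) : ℤ) * γ 0 0 : ℤ) : ZMod l) =
          (((((x * (u : ZMod l)).val : ℕ) : ℤ)) : ZMod l) := by
        rw [Int.cast_mul, Int.cast_natCast, ZMod.natCast_zmod_val, Int.cast_natCast,
          ZMod.natCast_zmod_val]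
      exact (ZMod.intCast_eq_intCast_iff' _ _ l).mp h3
  rw [eisPsiFun_slash, eisPsiFun_eq_sum, smul_comm, Finset.sum_congr rfl (fun x _ => hterm x)]
  congr 1
  rw [Finset.smul_sum]
  -- reindex by `x ↦ x * u`
  refine Finset.sum_nbij' (fun x => x * (u : ZMod l)) (fun y => y * ((u⁻¹ : (ZMod l)ˣ) : ZMod l))
    (fun _ _ => Finset.mem_univ _) (fun _ _ => Finset.mem_univ _) ?_ ?_ ?_
  · intro x _
    rw [mul_assoc, Units.mul_inv, mul_one]
  · intro y _
    rw [mul_assoc, Units.inv_mul, mul_one]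
  · intro x _
    rw [smul_smul]
    congr 1
    rw [map_mul]
    have h4 : ψ ((γ 1 1 : ℤ) : ZMod l) * ψ (u : ZMod l) = 1 := by
      rw [← map_mul]
      have : ((γ 1 1 : ℤ) : ZMod l) * (u : ZMod l) = 1 := by rw [mul_comm]; exact hdet
      rw [this, map_one]
    rw [mul_comm (ψ x), ← mul_assoc, h4, one_mul]

/-- `eisPsiFun` is invariant under `Γ₁(l)`. -/
theorem eisPsiFun_slash_Gamma1 {l : ℕ} [NeZero l] (hl : 0 < l) (hl1 : 1 < l) (ψ : DirichletCharacter ℂ l)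
    (γ : SL(2, ℤ)) (hγ : γ ∈ CongruenceSubgroup.Gamma1 l) :
    eisPsiFun l hl ψ ∣[(1 : ℤ)] γ = eisPsiFun l hl ψ := by
  have h0 : γ ∈ CongruenceSubgroup.Gamma0 l := CongruenceSubgroup.Gamma1_in_Gamma0 l hγ
  rw [eisPsiFun_slash_Gamma0 hl hl1 ψ γ h0]
  rw [CongruenceSubgroup.Gamma1_mem] at hγ
  rw [hγ.2.1, map_one, one_smul]

/-- `eisPsiFun` as a slash invariant form on `Γ₁(l)`. -/
def eisPsiSIF (l : ℕ) [NeZero l] (hl : 0 < l) (hl1 : 1 < l) (ψ : DirichletCharacter ℂ l) :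
    SlashInvariantForm (CongruenceSubgroup.Gamma1 l) 1 where
  toFun := eisPsiFun l hl ψ
  slash_action_eq' := by
    rintro _ ⟨γ, hγ, rfl⟩
    exact eisPsiFun_slash_Gamma1 hl hl1 ψ γ hγ

/-- **The weight one Eisenstein series as a modular form on `Γ₁(l)`.** -/
def eisPsi (l : ℕ) [NeZero l] (hl : 0 < l) (hl1 : 1 < l) (ψ : DirichletCharacter ℂ l) :
    ModularForm (CongruenceSubgroup.Gamma1 l) 1 where
  toSlashInvariantForm := eisPsiSIF l hl hl1 ψ
  holo' := mdiff_eisPsiFun hl hl1 ψ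
  bdd_at_cusps' {c} hc := by
    rw [Subgroup.IsArithmetic.isCusp_iff_isCusp_SL2Z] at hc
    rw [OnePoint.isBoundedAt_iff_forall_SL2Z hc]
    intro γ _
    exact isBoundedAtImInfty_eisPsiFun_slash hl hl1 ψ γ

@[simp] theorem coe_eisPsi (l : ℕ) [NeZero l] (hl : 0 < l) (hl1 : 1 < l) (ψ : DirichletCharacter ℂ l) :
    (⇑(eisPsi l hl hl1 ψ) : ℍ → ℂ) = eisPsiFun l hl ψ := rfl

theorem eisPsi_apply (l : ℕ) [NeZero l] (hl : 0 < l) (hl1 : 1 < l) (ψ : DirichletCharacter ℂ l) (τ : ℍ) :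
    eisPsi l hl hl1 ψ τ = (-(l : ℂ) / (2 * π * I)) *
      ∑ a ∈ Finset.range l, ψ ((a : ℕ) : ZMod l) * Zv l (a : ℤ) 0 (mulTau l hl τ) := rfl

/-- contract clause 1 for `eisPsi` -/
theorem eisPsi_nebentypus (l : ℕ) [NeZero l] (hl : 0 < l) (hl1 : 1 < l) (ψ : DirichletCharacter ℂ l)
    (γ : SL(2, ℤ)) (hγ : γ ∈ CongruenceSubgroup.Gamma0 l) :
    (⇑(eisPsi l hl hl1 ψ) : ℍ → ℂ) ∣[(1 : ℤ)] γ =
      ψ ((γ 1 1 : ℤ) : ZMod l) • (⇑(eisPsi l hl hl1 ψ) : ℍ → ℂ) :=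
  eisPsiFun_slash_Gamma0 hl hl1 ψ γ hγ

/-- the `q`-expansion coefficients of `eisPsi` from any `q`-expansion of `eisPsiFun` -/
theorem qCoeff_eisPsi (l : ℕ) [NeZero l] (hl : 0 < l) (hl1 : 1 < l) (ψ : DirichletCharacter ℂ l)
    {c : ℕ → ℂ}
    (hq : ∀ τ : ℍ, HasSum (fun n : ℕ => c n • Function.Periodic.qParam 1 τ ^ n)
      (eisPsiFun l hl ψ τ)) (n : ℕ) :
    ModularFormClass.qCoeff (eisPsi l hl hl1 ψ) n = c n := by
  have h1 : (1 : ℝ) ∈ (Subgroup.map (Matrix.SpecialLinearGroup.mapGL ℝ)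
      (CongruenceSubgroup.Gamma1 l)).strictPeriods := by
    rw [CongruenceSubgroup.strictPeriods_Gamma1]
    exact AddSubgroup.mem_zmultiples 1
  exact (ModularFormClass.qExpansion_coeff_unique (f := eisPsi l hl hl1 ψ) one_pos h1 hq n).symm

end Fermat.Agent.S48x.Eis1
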