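import Fermat.Agent.S48x.Eis1.Level
import Fermat.Agent.S48x.EWP.QExp
import Fermat.Agent.S48x.EWP.Teichmuller
import Fermat.Agent.S48x.DS2.Contract

/-!
# P-S48 (E-WP): the weight one Eisenstein series congruent to `1` (helper40)

Assembly of `DS2.EisensteinCongrOne ℓ φ` for every odd prime `ℓ` and every residue map
`φ : Zbar →+* k` of characteristic `ℓ`, from

* `Eis1.eisPsi` (the modular form, `Eis1/Level.lean`),
* `EWP.hasSum_qExp` (its `q`-expansion, helper42),
* `EWP.teichInv` (the character `ψ ≡ ω⁻¹` and the congruences, helper42).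
-/

set_option autoImplicit false

open UpperHalfPlane hiding I
open scoped MatrixGroups ModularForm

noncomputable section
namespace Fermat.Agent.S48x.Eis1

local notation "Zbar" => integralClosure ℤ ℂ

/-- **E-WP.** For an odd prime `ℓ` and a residue map `φ` of characteristic `ℓ` there is a weight
one modular form on `Γ₁(ℓ)` with nebentypus `ψ ≡ ω⁻¹`, integral `q`-expansion, congruent to `1`
modulo `ker φ`. -/
theorem eisensteinCongrOne (ℓ : ℕ) [NeZero ℓ] (hℓ : ℓ.Prime) (h2 : ℓ ≠ 2) (k : Type) [Field k]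
    [CharP k ℓ] (φ : Zbar →+* k) : DS2.EisensteinCongrOne ℓ φ := by
  have : Fact ℓ.Prime := ⟨hℓ⟩
  have hl : 0 < ℓ := hℓ.pos
  have hl1 : 1 < ℓ := hℓ.one_lt
  refine ⟨EWP.teichInv φ, eisPsi ℓ hl hl1 (EWP.teichInv φ), ?_, ?_, ?_⟩
  · intro γ hγ
    exact eisPsi_nebentypus ℓ hl hl1 (EWP.teichInv φ) γ hγ
  · intro d
    exact EWP.teichInv_spec φ d
  · intro n
    rw [qCoeff_eisPsi ℓ hl hl1 (EWP.teichInv φ)
      (fun τ => EWP.hasSum_qExp ℓ hl (EWP.teichInv φ) (EWP.teichInv_neg_one φ h2) τ) n]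
    exact EWP.teichInv_coeff φ n

/-- The same statement in the shape consumed by `DS2.residualRepsExist_of_inputs`. -/
theorem eisensteinCongrOne_all :
    ∀ (ℓ : ℕ) [NeZero ℓ], ℓ.Prime → ℓ ≠ 2 → ∀ (k : Type) [Field k] [CharP k ℓ]
      (φ : Zbar →+* k), DS2.EisensteinCongrOne ℓ φ :=
  fun ℓ _ hℓ h2 k _ _ φ => eisensteinCongrOne ℓ hℓ h2 k φ

end Fermat.Agent.S48x.Eis1
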