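import Fermat.Agent.S48x.Eis1.CotSum

/-!
# P-S48 (Deligne-Serre), weight one Eisenstein series, part 2 (helper40): the zeta function

The Weierstrass zeta function `zetaL w τ` of the lattice `ℤ τ + ℤ` as an absolutely convergent
lattice sum, the identity `CC w τ = zetaL w τ - w G₂(τ)` (row-wise summation with the cotangent
partial fractions), the homogeneity `zetaL (w/τ) (-1/τ) = τ zetaL w τ` (a reindexing) and, with
Mathlib's `G2_S_transform`, the transformation `CC (w/τ) (-1/τ) = τ CC w τ + 2 π i w`.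
-/

set_option autoImplicit false

open Complex Real Filter Topology Finset Asymptotics
open scoped UpperHalfPlane

noncomputable section
namespace Fermat.Agent.S48x.Eis1

/-- The summand of the Weierstrass zeta function of the lattice `ℤ τ + ℤ` (with the convention
`0⁻¹ = 0` the term at the origin is `1 / w`). -/
def zTerm (w : ℂ) (τ : ℍ) (m n : ℤ) : ℂ :=
  (w + m * τ + n)⁻¹ - ((m : ℂ) * τ + n)⁻¹ + w * (((m : ℂ) * τ + n) ^ 2)⁻¹

theorem zTerm_eq {w : ℂ} {τ : ℍ} {m n : ℤ} (h1 : (m : ℂ) * τ + n ≠ 0) (h2 : w + m * τ + n ≠ 0) :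
    zTerm w τ m n = w ^ 2 * (w + m * τ + n)⁻¹ * (((m : ℂ) * τ + n) ^ 2)⁻¹ := by
  unfold zTerm
  field_simp
  ring

theorem tendsto_norm_cofinite_vec :
    Tendsto (fun v : Fin 2 → ℤ => ‖v‖) cofinite atTop := by
  have := tendsto_norm_cocompact_atTop (E := Fin 2 → ℤ)
  rwa [cocompact_eq_cofinite] at this

theorem isBigO_zTerm (w : ℂ) (τ : ℍ) :
    (fun v : Fin 2 → ℤ => zTerm w τ (v 0) (v 1)) =O[cofinite] fun v => (‖v‖ ^ (3 : ℝ))⁻¹ := by
  set r := EisensteinSeries.r τ with hr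
  have hrpos : 0 < r := EisensteinSeries.r_pos τ
  have hev : ∀ᶠ v : Fin 2 → ℤ in cofinite, 2 * ‖w‖ / r + 1 ≤ ‖v‖ :=
    tendsto_norm_cofinite_vec.eventually_ge_atTop _
  apply IsBigO.of_bound (2 * ‖w‖ ^ 2 / r ^ 3)
  filter_upwards [hev] with v hv
  have hvpos : 0 < ‖v‖ := by
    have : 0 ≤ 2 * ‖w‖ / r := by positivity
    linarith
  have hv0 : v ≠ 0 := by
    rintro rfl
    simp at hvpos
  have hω : r * ‖v‖ ≤ ‖(v 0 : ℂ) * τ + v 1‖ := EisensteinSeries.r_mul_max_le τ hv0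
  have hω0 : (v 0 : ℂ) * τ + v 1 ≠ 0 := by
    intro h
    rw [h, norm_zero] at hω
    have : 0 < r * ‖v‖ := by positivity
    linarith
  have hw2 : 2 * ‖w‖ ≤ r * ‖v‖ := by
    have : 2 * ‖w‖ / r ≤ ‖v‖ := by linarith
    rw [div_le_iff₀ hrpos] at this
    linarith
  have hwω : r * ‖v‖ / 2 ≤ ‖w + (v 0 : ℂ) * τ + v 1‖ := by
    have h1 : ‖(v 0 : ℂ) * τ + v 1‖ - ‖w‖ ≤ ‖w + (v 0 : ℂ) * τ + v 1‖ := by
      have := norm_sub_norm_le ((v 0 : ℂ) * τ + v 1) (-w)
      rw [norm_neg, sub_neg_eq_add] at this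
      calc ‖(v 0 : ℂ) * τ + v 1‖ - ‖w‖ ≤ ‖(v 0 : ℂ) * τ + v 1 + w‖ := this
        _ = ‖w + (v 0 : ℂ) * τ + v 1‖ := by congr 1; ring
    linarith
  have hwω0 : w + (v 0 : ℂ) * τ + v 1 ≠ 0 := by
    intro h
    rw [h, norm_zero] at hwω
    have : 0 < r * ‖v‖ := by positivity
    linarith
  rw [zTerm_eq hω0 hwω0]
  rw [norm_mul, norm_mul, norm_pow, norm_inv, norm_inv, norm_pow, norm_inv, Real.norm_of_nonneg
    (by positivity : (0 : ℝ) ≤ ‖v‖ ^ (3 : ℝ))]
  have h3 : ‖v‖ ^ (3 : ℝ) = ‖v‖ ^ 3 := by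
    rw [← Real.rpow_natCast]; norm_num
  rw [h3]
  have ha : ‖w + (v 0 : ℂ) * τ + v 1‖⁻¹ ≤ (r * ‖v‖ / 2)⁻¹ :=
    inv_anti₀ (by positivity) hwω
  have hb : (‖(v 0 : ℂ) * τ + v 1‖ ^ 2)⁻¹ ≤ ((r * ‖v‖) ^ 2)⁻¹ :=
    inv_anti₀ (by positivity) (pow_le_pow_left₀ (by positivity) hω 2)
  calc ‖w‖ ^ 2 * ‖w + (v 0 : ℂ) * τ + v 1‖⁻¹ * (‖(v 0 : ℂ) * τ + v 1‖ ^ 2)⁻¹
      ≤ ‖w‖ ^ 2 * (r * ‖v‖ / 2)⁻¹ * ((r * ‖v‖) ^ 2)⁻¹ := by gcongr
    _ = 2 * ‖w‖ ^ 2 / r ^ 3 * (‖v‖ ^ 3)⁻¹ := by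
      field_simp

theorem summable_zTerm_vec (w : ℂ) (τ : ℍ) :
    Summable fun v : Fin 2 → ℤ => zTerm w τ (v 0) (v 1) :=
  EisensteinSeries.summable_of_isBigO_rpow_norm (by norm_num) (isBigO_zTerm w τ)

theorem summable_zTerm (w : ℂ) (τ : ℍ) :
    Summable fun p : ℤ × ℤ => zTerm w τ p.1 p.2 := by
  apply (finTwoArrowEquiv _).symm.summable_iff.mpr (summable_zTerm_vec w τ)

/-- The Weierstrass zeta function of the lattice `ℤ τ + ℤ`. -/
def zetaL (w : ℂ) (τ : ℍ) : ℂ := ∑' p : ℤ × ℤ, zTerm w τ p.1 p.2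


theorem summable_inv_mul_inv (x y : ℂ) : Summable fun n : ℤ => ((x + n) * (y + n))⁻¹ := by
  apply EisensteinSeries.summable_inv_of_isBigO_rpow_inv (a := 2) (by norm_cast)
  have h1 := EisensteinSeries.linear_inv_isBigO_right 1 x
  have h2 := EisensteinSeries.linear_inv_isBigO_right 1 y
  simpa [pow_two] using h2.mul h1

theorem mem_integerComplement_iff {x : ℂ} : x ∈ Complex.integerComplement ↔ ee x ≠ 1 := by
  rw [Ne, ee_eq_one_iff]
  simp only [Complex.integerComplement, Set.mem_compl_iff, Set.mem_range, not_exists]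
  constructor
  · intro h n hn; exact h n hn.symm
  · intro h n hn; exact h n hn.symm

theorem summable_inv_sub_inv {x y : ℂ} (hx : ee x ≠ 1) (hy : ee y ≠ 1) :
    Summable fun n : ℤ => (x + n)⁻¹ - (y + n)⁻¹ := by
  have hx' := mem_integerComplement_iff.mpr hx
  have hy' := mem_integerComplement_iff.mpr hy
  refine ((summable_inv_mul_inv x y).mul_left (y - x)).congr fun n => ?_
  have h1 : x + n ≠ 0 := Complex.integerComplement_add_ne_zero hx' n
  have h2 : y + n ≠ 0 := Complex.integerComplement_add_ne_zero hy' n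
  field_simp
  ring


theorem tendsto_sum_Icc_of_hasSum {f : ℤ → ℂ} {a : ℂ} (h : HasSum f a) :
    Tendsto (fun M : ℕ => ∑ m ∈ Icc (-(M : ℤ)) M, f m) atTop (𝓝 a) :=
  SummationFilter.hasSum_symmetricIcc_iff.mp
    (h.mono_left (SummationFilter.symmetricIcc ℤ).le_atTop)

theorem hasSum_cotTerm {x : ℂ} (hx : ee x ≠ 1) :
    HasSum (fun n : ℕ => (x + ((n + 1 : ℕ) : ℤ))⁻¹ + (x + ((-((n + 1 : ℕ) : ℤ) : ℤ) : ℂ))⁻¹)
      (pc x - x⁻¹) := by
  have hx' := mem_integerComplement_iff.mpr hx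
  have h1 := (summable_cotTerm hx').hasSum
  rw [← cot_series_rep' hx'] at h1
  unfold pc
  rw [one_div] at h1
  convert h1 using 2 with n
  unfold cotTerm
  push_cast
  rw [one_div, one_div]
  ring_nf


theorem sum_Icc_eq_add_sum_range' (f : ℤ → ℂ) (M : ℕ) :
    ∑ m ∈ Icc (-(M : ℤ)) M, f m =
      f 0 + ∑ m ∈ range M, (f ((m + 1 : ℕ) : ℤ) + f (-((m + 1 : ℕ) : ℤ))) :=
  sum_Icc_eq_add_sum_range f M

/-- `∑_n (1/(x+n) - 1/(y+n)) = π cot(π x) - π cot(π y)`. -/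
theorem hasSum_inv_sub_inv {x y : ℂ} (hx : ee x ≠ 1) (hy : ee y ≠ 1) :
    HasSum (fun n : ℤ => (x + n)⁻¹ - (y + n)⁻¹) (pc x - pc y) := by
  have hs := summable_inv_sub_inv hx hy
  have h1 := tendsto_sum_Icc_of_hasSum hs.hasSum
  have h2 := ((hasSum_cotTerm hx).sub (hasSum_cotTerm hy)).tendsto_sum_nat
  have h3 := h2.const_add (x⁻¹ - y⁻¹)
  have h4 : ∑' n : ℤ, ((x + n)⁻¹ - (y + n)⁻¹) = pc x - pc y := by
    refine tendsto_nhds_unique h1 ?_
    have e : x⁻¹ - y⁻¹ + (pc x - x⁻¹ - (pc y - y⁻¹)) = pc x - pc y := by ring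
    rw [e] at h3
    refine h3.congr fun M => ?_
    rw [sum_Icc_eq_add_sum_range']
    congr 1
    · simp
    · apply Finset.sum_congr rfl
      intro m _
      ring
  rw [← h4]
  exact hs.hasSum

theorem summable_inv_sub_inv_zero {x : ℂ} (hx : ee x ≠ 1) :
    Summable fun n : ℤ => (x + n)⁻¹ - (n : ℂ)⁻¹ := by
  have hx' := mem_integerComplement_iff.mpr hx
  have h1 := (summable_inv_mul_inv x 0).mul_left (-x)
  have h2 : Summable fun n : ℤ => if n = 0 then x⁻¹ else 0 :=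
    summable_of_ne_finset_zero (s := {0}) (fun b hb => by
      rw [Finset.mem_singleton] at hb; simp [hb])
  refine (h1.add h2).congr fun n => ?_
  by_cases hn : n = 0
  · subst hn; simp
  · have h3 : x + n ≠ 0 := Complex.integerComplement_add_ne_zero hx' n
    have h4 : (n : ℂ) ≠ 0 := by exact_mod_cast hn
    simp only [hn, if_false, add_zero, zero_add]
    field_simp
    ring

/-- `1/x + ∑_{n ≠ 0} (1/(x+n) - 1/n) = π cot(π x)`. -/
theorem hasSum_inv_sub_inv_zero {x : ℂ} (hx : ee x ≠ 1) :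
    HasSum (fun n : ℤ => (x + n)⁻¹ - (n : ℂ)⁻¹) (pc x) := by
  have hs := summable_inv_sub_inv_zero hx
  have h1 := tendsto_sum_Icc_of_hasSum hs.hasSum
  have h2 := (hasSum_cotTerm hx).tendsto_sum_nat
  have h3 := h2.const_add (x⁻¹)
  have h4 : ∑' n : ℤ, ((x + n)⁻¹ - (n : ℂ)⁻¹) = pc x := by
    refine tendsto_nhds_unique h1 ?_
    have e : x⁻¹ + (pc x - x⁻¹) = pc x := by ring
    rw [e] at h3
    refine h3.congr fun M => ?_
    rw [sum_Icc_eq_add_sum_range']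
    congr 1
    · simp
    · apply Finset.sum_congr rfl
      intro m _
      push_cast
      rw [inv_neg]
      ring
  rw [← h4]
  exact hs.hasSum



theorem e2Summand_eq (m : ℤ) (τ : ℍ) :
    EisensteinSeries.e2Summand m τ = ∑' n : ℤ, (((m : ℂ) * τ + n) ^ 2)⁻¹ := by
  unfold EisensteinSeries.e2Summand EisensteinSeries.eisSummand
  apply tsum_congr
  intro n
  simp [zpow_ofNat]

theorem summable_inv_sq (m : ℤ) (τ : ℍ) : Summable fun n : ℤ => (((m : ℂ) * τ + n) ^ 2)⁻¹ := by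
  have := EisensteinSeries.e2Summand_summable m τ
  refine this.congr fun n => ?_
  unfold EisensteinSeries.eisSummand
  simp [zpow_ofNat]

/-- The constants `π cot(π m τ)` (and `0` for `m = 0`). -/
def cm (τ : ℍ) (m : ℤ) : ℂ := if m = 0 then 0 else pc (m * τ)

theorem cm_neg (τ : ℍ) (m : ℤ) : cm τ (-m) = -cm τ m := by
  unfold cm
  by_cases hm : m = 0
  · simp [hm]
  · have : -m ≠ 0 := neg_ne_zero.mpr hm
    simp only [hm, this, if_false]
    rw [← pc_neg]; congr 1; push_cast; ring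

theorem ee_int_mul_ne_one (τ : ℍ) {m : ℤ} (hm : m ≠ 0) : ee ((m : ℂ) * τ) ≠ 1 := by
  intro h
  obtain ⟨n, hn⟩ := (ee_eq_one_iff _).mp h
  have := congrArg Complex.im hn
  simp at this
  rcases this with h1 | h1
  · exact hm h1
  · exact τ.im_ne_zero h1

/-- The row sums of the zeta summand. -/
theorem hasSum_zTerm_row {w : ℂ} {τ : ℍ} (h : NotLat w τ) (m : ℤ) :
    HasSum (fun n : ℤ => zTerm w τ m n)
      (pc (w + m * τ) - cm τ m + w * EisensteinSeries.e2Summand m τ) := by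
  have h2 := ((summable_inv_sq m τ).hasSum).mul_left w
  rw [← e2Summand_eq] at h2
  by_cases hm : m = 0
  · subst hm
    have h1 := hasSum_inv_sub_inv_zero (x := w) (by simpa using h.ee_ne_one 0)
    have := h1.add h2
    unfold cm
    simp only [if_true, sub_zero, Int.cast_zero, zero_mul, add_zero]
    convert this using 2 with n
    unfold zTerm
    simp
  · have h1 := hasSum_inv_sub_inv (x := w + m * τ) (y := m * τ) (h.ee_ne_one m)
      (ee_int_mul_ne_one τ hm)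
    have := h1.add h2
    unfold cm
    simp only [hm, if_false]
    convert this using 2 with n
    rfl


theorem sum_Icc_cm (τ : ℍ) (M : ℕ) : ∑ m ∈ Icc (-(M : ℤ)) M, cm τ m = 0 := by
  rw [sum_Icc_eq_add_sum_range']
  have h0 : cm τ 0 = 0 := by simp [cm]
  rw [h0, zero_add]
  apply Finset.sum_eq_zero
  intro m _
  rw [cm_neg, add_neg_cancel]

theorem tendsto_sum_Icc_e2Summand (τ : ℍ) :
    Tendsto (fun M : ℕ => ∑ m ∈ Icc (-(M : ℤ)) M, EisensteinSeries.e2Summand m τ) atTop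
      (𝓝 (EisensteinSeries.G2 τ)) :=
  SummationFilter.hasSum_symmetricIcc_iff.mp
    (EisensteinSeries.summable_e2Summand_symmetricIcc τ).hasSum

/-- **Main identity**: the cotangent sum is the Weierstrass zeta function minus `w G₂(τ)`. -/
theorem CC_eq_zetaL_sub {w : ℂ} {τ : ℍ} (h : NotLat w τ) :
    CC w τ = zetaL w τ - w * EisensteinSeries.G2 τ := by
  have hrow := hasSum_zTerm_row h
  have hprod : HasSum (fun p : ℤ × ℤ => zTerm w τ p.1 p.2) (zetaL w τ) :=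
    (summable_zTerm w τ).hasSum
  have hR := hprod.prod_fiberwise hrow
  have h1 := tendsto_sum_Icc_of_hasSum hR
  have h2 := (tendsto_sum_Icc_e2Summand τ).const_mul w
  have h3 := h1.sub h2
  refine tendsto_nhds_unique (tendsto_sum_Icc_pc h) (h3.congr fun M => ?_)
  rw [Finset.sum_add_distrib, Finset.sum_sub_distrib, sum_Icc_cm, Finset.mul_sum]
  ring


theorem coe_S_smul (τ : ℍ) : ((ModularGroup.S • τ : ℍ) : ℂ) = -(τ : ℂ)⁻¹ := by
  rw [UpperHalfPlane.modular_S_smul]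
  simp [inv_neg]

theorem zTerm_S (w : ℂ) (τ : ℍ) (m n : ℤ) :
    zTerm (w / τ) (ModularGroup.S • τ) m n = τ * zTerm w τ n (-m) := by
  have hτ : (τ : ℂ) ≠ 0 := UpperHalfPlane.ne_zero τ
  unfold zTerm
  rw [coe_S_smul]
  have e1 : w / τ + m * -(τ : ℂ)⁻¹ + n = (w + n * τ + ((-m : ℤ) : ℂ)) / τ := by
    push_cast; field_simp; ring
  have e2 : (m : ℂ) * -(τ : ℂ)⁻¹ + n = ((n : ℂ) * τ + ((-m : ℤ) : ℂ)) / τ := by
    push_cast; field_simp; ring
  rw [e1, e2, div_pow, inv_div, inv_div, inv_div]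
  field_simp

theorem NotLat.S_smul {w : ℂ} {τ : ℍ} (h : NotLat w τ) : NotLat (w / τ) (ModularGroup.S • τ) := by
  intro m n h0
  have hτ : (τ : ℂ) ≠ 0 := UpperHalfPlane.ne_zero τ
  apply h n (-m)
  rw [coe_S_smul] at h0
  have e1 : w / τ + m * -(τ : ℂ)⁻¹ + n = (w + n * τ + ((-m : ℤ) : ℂ)) / τ := by
    push_cast; field_simp; ring
  rw [e1, div_eq_zero_iff] at h0
  rcases h0 with h0 | h0
  · exact h0
  · exact absurd h0 hτ

theorem zetaL_S (w : ℂ) (τ : ℍ) :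
    zetaL (w / τ) (ModularGroup.S • τ) = τ * zetaL w τ := by
  unfold zetaL
  simp_rw [zTerm_S]
  rw [tsum_mul_left]
  congr 1
  let e : ℤ × ℤ ≃ ℤ × ℤ :=
    { toFun := fun p => (p.2, -p.1)
      invFun := fun p => (-p.2, p.1)
      left_inv := fun p => by simp
      right_inv := fun p => by simp }
  exact e.tsum_eq (fun p : ℤ × ℤ => zTerm w τ p.1 p.2)

/-- The transformation of the cotangent sum under `τ ↦ -1/τ`. -/
theorem CC_S {w : ℂ} {τ : ℍ} (h : NotLat w τ) :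
    CC (w / τ) (ModularGroup.S • τ) = τ * CC w τ + 2 * π * I * w := by
  have hτ : (τ : ℂ) ≠ 0 := UpperHalfPlane.ne_zero τ
  rw [CC_eq_zetaL_sub h.S_smul, CC_eq_zetaL_sub h, zetaL_S]
  have hG := EisensteinSeries.G2_S_transform τ
  have hG' : EisensteinSeries.G2 (ModularGroup.S • τ) =
      (τ : ℂ) ^ 2 * EisensteinSeries.G2 τ - 2 * π * I * τ := by
    rw [hG]
    field_simp
    ring
  rw [hG']
  field_simp
  ring

end Fermat.Agent.S48x.Eis1
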